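import Fermat.Agent.MW.Core.API
import Fermat.Agent.MW.Core.BaseChange
import Fermat.Agent.MW.Core.Projection

/-!
# Unramified fibres of the projection

Outside the zeros of the discriminant of the trace-dual data, a fibre of the projection consists of
distinct points.
-/

set_option autoImplicit false

noncomputable section

open scoped TensorProduct

namespace Fermat.Agent.MW.CurveBasis

variable {K A : Type} [Field K] [CommRing A] [Algebra K A] (D : CurveBasis K A)

/-- Division by `π - c` with the Apéry basis as remainders. -/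
theorem exists_sub_mem_span_proj (c : K) (f : A) :
    ∃ p : Fin D.projDeg → K, f - ∑ j, p j • D.e (D.apery j) ∈
      Ideal.span {D.e D.projDeg - algebraMap K A c} := by
  set I := Ideal.span {D.e D.projDeg - algebraMap K A c}
  set M : Submodule K A := I.restrictScalars K ⊔
    Submodule.span K (Set.range fun j : Fin D.projDeg => D.e (D.apery j))
  suffices hM : ∀ n, D.e n ∈ M by
    have hf : f ∈ M := by
      have := D.mem_lev_deg f
      refine (Submodule.span_le.mpr ?_) this
      rintro _ ⟨n, -, rfl⟩
      exact hM n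
    obtain ⟨y, hy, z, hz, rfl⟩ := Submodule.mem_sup.mp hf
    obtain ⟨p, rfl⟩ := Submodule.mem_span_range_iff_exists_fun K |>.mp hz
    exact ⟨p, by simpa using hy⟩
  intro n
  induction n using Nat.strong_induction_on with
  | _ n ih =>
    by_cases hn : n ∈ D.gaps
    · rw [D.e_gap hn]; exact zero_mem _
    have hmpos : 0 < D.projDeg := by simp [projDeg]
    set j : Fin D.projDeg := ⟨n % D.projDeg, Nat.mod_lt _ hmpos⟩
    have hmem : n ∈ {i : ℕ | i ∉ D.gaps ∧ i % D.projDeg = j} := ⟨hn, rfl⟩
    have hap := Nat.sInf_mem (Set.nonempty_of_mem hmem)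
    have hle : D.apery j ≤ n := Nat.sInf_le hmem
    rcases hle.eq_or_lt with heq | hlt
    · exact Submodule.mem_sup_right (Submodule.subset_span ⟨j, by rw [← heq]⟩)
    obtain ⟨k, hk⟩ : ∃ k, n = D.apery j + (k + 1) * D.projDeg := by
      have h1 : n % D.projDeg = D.apery j % D.projDeg := hap.2.symm
      obtain ⟨d, hd⟩ := (Nat.modEq_iff_dvd' hle).mp h1.symm
      rcases Nat.eq_zero_or_pos d with rfl | hd'
      · omega
      · exact ⟨d - 1, by rw [Nat.sub_add_cancel hd', mul_comm, ← hd]; omega⟩
    set n' := D.apery j + k * D.projDeg with hn'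
    have hn'g : n' ∉ D.gaps := D.add_mul_notMem hap.1 k
    have hsum : n' + D.projDeg = n := by rw [hn', hk, Nat.succ_mul]; ring
    have hmul := D.e_mul n' D.projDeg hn'g D.projDeg_notMem
    rw [hsum] at hmul
    have h1 : D.e n' * D.e D.projDeg ∈ M := by
      have h2 : D.e n' * D.e D.projDeg =
          D.e n' * (D.e D.projDeg - algebraMap K A c) + c • D.e n' := by
        rw [Algebra.smul_def]; ring
      rw [h2]
      exact add_mem (Submodule.mem_sup_left (I.mul_mem_left _ (Ideal.mem_span_singleton_self _)))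
        (Submodule.smul_mem _ _ (ih n' (by omega)))
    have h3 : D.e n' * D.e D.projDeg - D.e n ∈ M := by
      refine (Submodule.span_le.mpr ?_) hmul
      rintro _ ⟨i, hi, rfl⟩
      exact ih i hi
    simpa using sub_mem h1 h3

variable [IsDedekindDomain A] [IsAlgClosed K] [CharZero K]

omit [CharZero K] in
/-- The trace-dual identity at a rational point. -/
theorem fiber_dual_self (E : DualData D) (φ : A →ₐ[K] K) (Qs : Multiset (Pt K A)) (f : A)
    (p : Fin D.projDeg → K)
    (hz : D.zeros D.projDeg (D.e D.projDeg - algebraMap K A (φ (D.e D.projDeg))) = some φ ::ₘ Qs)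
    (hQ : f = 0 ∨ Qs ≤ (zerosFin f).map some)
    (hmod : f - ∑ j, p j • D.e (D.apery j) ∈
      Ideal.span {D.e D.projDeg - algebraMap K A (φ (D.e D.projDeg))}) (i : Fin D.projDeg) :
    φ (E.W i) * φ f = Polynomial.eval (φ (D.e D.projDeg)) E.Δ * p i := by
  have : IsDedekindDomain (K ⊗[K] A) := isDedekindDomain_baseChange D K
  set ι : A →ₐ[K] K ⊗[K] A := Algebra.TensorProduct.includeRight
  set ψ : K ⊗[K] A →ₐ[K] K := Algebra.TensorProduct.lift (AlgHom.id K K)
    ((Algebra.ofId K K).comp φ) (fun _ _ => Commute.all _ _)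
  have hψ : ∀ t, ψ (1 ⊗ₜ t) = φ t := fun t => by simp [ψ]
  have hmap : mapPt K (some φ) = some ψ := rfl
  have hc : (1 : K) ⊗ₜ D.e D.projDeg - algebraMap K (K ⊗[K] A) (ψ (1 ⊗ₜ D.e D.projDeg)) =
      ι (D.e D.projDeg - algebraMap K A (φ (D.e D.projDeg))) := by
    rw [map_sub, ι.commutes, hψ]; rfl
  have hne := D.proj_sub_ne_zero (φ (D.e D.projDeg))
  have h := E.fiber_dual K ψ (Qs.map (mapPt K)) (ι f) p ?_ ?_ ?_ i
  · simpa [ι, hψ, Polynomial.coe_aeval_eq_eval] using h
  · rw [hc]
    change (D.baseChange K).zeros D.projDeg (1 ⊗ₜ _) = _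
    rw [D.zeros_baseChange K hne, hz, Multiset.map_cons, hmap]
  · rcases hQ with rfl | hQ
    · exact Or.inl (map_zero _)
    rcases eq_or_ne f 0 with rfl | hf
    · exact Or.inl (map_zero _)
    refine Or.inr ?_
    have h1 := Multiset.map_le_map (f := mapPt K) hQ
    have h2 : D.zeros (D.deg f) f = (zerosFin f).map some := by simp [zeros]
    rw [← h2, ← D.zeros_baseChange K hf] at h1
    refine h1.trans ?_
    have hdeg : (D.baseChange K).deg (ι f) = D.deg f := by
      refine le_antisymm ((D.baseChange K).deg_le_of_mem_lev ?_) ?_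
      · rw [CurveBasis.mem_lev_iff]
        intro n hn
        change (D.baseChange K).coeff n (1 ⊗ₜ f) = 0
        rw [D.baseChange_coeff, (D.mem_lev_iff.mp (D.mem_lev_deg f)) n hn, map_zero, mul_zero]
      · by_contra hlt
        push Not at hlt
        refine D.coeff_deg_ne_zero hf ?_
        have := (D.baseChange K).mem_lev_iff.mp ((D.baseChange K).mem_lev_deg (ι f)) _ hlt
        change (D.baseChange K).coeff (D.deg f) (1 ⊗ₜ f) = 0 at this
        rw [D.baseChange_coeff] at this
        simpa using this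
    change (D.baseChange K).zeros (D.deg f) (ι f) ≤ _
    rw [← hdeg]
    simp [zeros]
  · rw [hc]
    have h1 : ι f - ∑ j, p j • ((1 : K) ⊗ₜ D.e (D.apery j)) =
        ι (f - ∑ j, p j • D.e (D.apery j)) := by
      rw [map_sub, map_sum]
      simp [ι]
    rw [h1, ← Set.image_singleton, ← Ideal.map_span]
    exact Ideal.mem_map_of_mem ι hmod

omit [CharZero K] in
/-- A fibre where the discriminant does not vanish is unramified. -/
theorem notMem_fibre_of_eval_ne_zero (E : DualData D) (φ : A →ₐ[K] K) (Qs : Multiset (Pt K A))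
    (hz : D.zeros D.projDeg (D.e D.projDeg - algebraMap K A (φ (D.e D.projDeg))) = some φ ::ₘ Qs)
    (hΔ : Polynomial.eval (φ (D.e D.projDeg)) E.Δ ≠ 0) : some φ ∉ Qs := by
  classical
  intro hmem
  set t := D.e D.projDeg - algebraMap K A (φ (D.e D.projDeg)) with ht
  have ht0 : t ≠ 0 := D.proj_sub_ne_zero _
  have hnone : none ∉ D.zeros D.projDeg t := D.none_notMem_zeros_proj_sub _
  have hdegt : D.deg t = D.projDeg := D.deg_proj_sub _
  obtain ⟨f, hflev, hf0, E', hfz, hE'⟩ := D.exists_section_avoid Qs
    (n := Multiset.card Qs + 2 * D.genus) le_rfl {some φ}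
  obtain ⟨p, hp⟩ := D.exists_sub_mem_span_proj (φ (D.e D.projDeg)) f
  have hQ : Qs ≤ (zerosFin f).map some := by
    have h1 : Qs ≤ D.zeros (Multiset.card Qs + 2 * D.genus) f := hfz ▸ Multiset.le_add_right _ _
    rw [Multiset.le_iff_count] at h1 ⊢
    intro P
    cases P with
    | none =>
      have : (none : Pt K A) ∉ Qs := fun h => hnone (hz ▸ Multiset.mem_cons_of_mem h)
      simp [Multiset.count_eq_zero.mpr this]
    | some ψ =>
      have := h1 (some ψ)
      simpa [zeros, Multiset.count_add, Multiset.count_replicate] using this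
  have hφf : φ f = 0 := by
    have := (D.evSec_eq_zero_iff hf0 hflev (some φ)).mpr
      (hfz ▸ Multiset.mem_add.mpr (Or.inl hmem))
    exact this
  have hp0 : ∀ i, p i = 0 := fun i => by
    have := D.fiber_dual_self E φ Qs f p hz (Or.inr hQ) hp i
    rw [hφf, mul_zero] at this
    exact (mul_eq_zero.mp this.symm).resolve_left hΔ
  simp only [hp0, zero_smul, Finset.sum_const_zero, sub_zero] at hp
  obtain ⟨u, hu⟩ := Ideal.mem_span_singleton'.mp hp
  have hu0 : u ≠ 0 := fun h0 => hf0 (by rw [← hu, h0, zero_mul])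
  have hle : (zerosFin t).map (some : _ → Pt K A) ≤ (zerosFin f).map some := by
    have hz1 : D.zeros (D.deg f) f = (zerosFin f).map some := by simp [zeros]
    have hz2 : D.zeros (D.deg t) t = (zerosFin t).map some := by simp [zeros]
    rw [← hz1, ← hz2, ← hu, D.deg_mul hu0 ht0, D.zeros_mul hu0 ht0 (D.mem_lev_deg u)
      (D.mem_lev_deg t)]
    exact Multiset.le_add_left _ _
  have hz3 : D.zeros D.projDeg t = (zerosFin t).map some := by simp [zeros, hdegt]
  rw [← hz3, hz] at hle
  have h4 := Multiset.count_le_of_le (some φ) hle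
  have h5 : Multiset.count (some φ) ((zerosFin f).map some) ≤
      Multiset.count (some φ) (Qs + E') := by
    rw [← hfz, zeros, Multiset.count_add]
    exact Nat.le_add_right _ _
  rw [Multiset.count_cons_self] at h4
  rw [Multiset.count_add, Multiset.count_eq_zero.mpr (fun h => hE' _ h (Finset.mem_singleton_self _))]
    at h5
  omega

end Fermat.Agent.MW.CurveBasis
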