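import Fermat.Agent.MW.Core.API
import Fermat.Agent.MW.Weak.Classes

/-!
# Galois conjugates of sections and families

The Galois group acts on sections compatibly with values, coefficients and zeros, and a family
has only finitely many conjugates.
-/

set_option autoImplicit false

noncomputable section

open scoped TensorProduct

namespace Fermat.Agent.MW

variable {A₀ : Type} [CommRing A₀] [Algebra ℚ A₀] (D₀ : CurveBasis ℚ A₀)


/-- Galois conjugation fixes the basis functions. -/
theorem galFun_e (σ : GalQ) (n : ℕ) : galFun σ ((D₀.baseChange Qbar).e n) = (D₀.baseChange Qbar).e n := by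
  by_cases hn : n ∈ D₀.gaps
  · have : (D₀.baseChange Qbar).e n = 0 := dif_pos hn
    rw [this, map_zero]
  · have : (D₀.baseChange Qbar).e n = D₀.basis.baseChange Qbar ⟨n, hn⟩ := dif_neg hn
    rw [this, Module.Basis.baseChange_apply, galFun_tmul, map_one]

/-- Galois conjugation is semilinear. -/
theorem galFun_smul (σ : GalQ) (c : Qbar) (t : (Qbar ⊗[ℚ] A₀)) :
    galFun σ (c • t) = σ c • galFun σ t := by
  rw [Algebra.smul_def, map_mul, Algebra.smul_def, Algebra.TensorProduct.algebraMap_apply]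
  rfl

/-- Galois conjugation on constants. -/
theorem galFun_algebraMap (σ : GalQ) (c : Qbar) :
    galFun σ (algebraMap Qbar (Qbar ⊗[ℚ] A₀) c) = algebraMap Qbar (Qbar ⊗[ℚ] A₀) (σ c) := rfl

/-- Galois conjugation preserves the filtration. -/
theorem galFun_mem_lev (σ : GalQ) {n : ℕ} {t : (Qbar ⊗[ℚ] A₀)} (ht : t ∈ (D₀.baseChange Qbar).lev n) :
    galFun σ t ∈ (D₀.baseChange Qbar).lev n := by
  rw [CurveBasis.mem_lev_iff] at ht ⊢
  intro m hm
  rw [coeff_galFun, ht m hm, map_zero]

theorem galFun_injective (σ : GalQ) : Function.Injective (galFun (A₀ := A₀) σ) :=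
  (galFunEquiv (A₀ := A₀) σ).injective

/-- Galois conjugation preserves being nonzero. -/
theorem galFun_ne_zero (σ : GalQ) {t : (Qbar ⊗[ℚ] A₀)} (ht : t ≠ 0) : galFun σ t ≠ 0 :=
  (map_ne_zero_iff _ (galFun_injective σ)).mpr ht

/-- Galois conjugation of points is injective. -/
theorem galPt_injective (σ : GalQ) : Function.Injective (galPt (A₀ := A₀) σ) :=
  MulAction.injective σ

/-- Evaluation commutes with Galois conjugation. -/
theorem evSec_galFun (σ : GalQ) (n : ℕ) (P : Pt Qbar (Qbar ⊗[ℚ] A₀)) (t : (Qbar ⊗[ℚ] A₀)) :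
    (D₀.baseChange Qbar).evSec n (galPt σ P) (galFun σ t) =
      σ ((D₀.baseChange Qbar).evSec n P t) := by
  rcases P with _ | φ
  · exact coeff_galFun D₀ σ n t
  · obtain ⟨ψ, hψ⟩ := exists_galPt_eq_some σ φ
    rw [hψ]
    exact galPt_some_galFun σ φ ψ hψ t

/-- Coefficient vectors commute with Galois conjugation. -/
theorem coeffVec_galFun (σ : GalQ) (n : ℕ) (t : (Qbar ⊗[ℚ] A₀)) :
    (D₀.baseChange Qbar).coeffVec n (galFun σ t) = σ • (D₀.baseChange Qbar).coeffVec n t := by
  funext i
  exact coeff_galFun D₀ σ i t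

/-- The basis functions at a conjugate point take conjugate values. -/
theorem proj_galPt (σ : GalQ) (φ ψ : (Qbar ⊗[ℚ] A₀) →ₐ[Qbar] Qbar) (h : galPt σ (some φ) = some ψ) (n : ℕ) :
    ψ ((D₀.baseChange Qbar).e n) = σ (φ ((D₀.baseChange Qbar).e n)) := by
  rw [← galPt_some_galFun σ φ ψ h, galFun_e]

variable [IsDedekindDomain (Qbar ⊗[ℚ] A₀)]

/-- The Galois conjugate of a family. -/
def galFamily (σ : GalQ) {ι : Type} (F : BaseFamily (D₀.baseChange Qbar) ι) :
    BaseFamily (D₀.baseChange Qbar) ι where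
  k := F.k
  W i := galFun σ (F.W i)
  mem i := galFun_mem_lev D₀ σ (F.mem i)
  R := F.R.map (galPt σ)
  le_zeros w hw hw0 := by
    have hw' : galFun σ⁻¹ w ∈ Submodule.span Qbar (Set.range F.W) := by
      clear hw0
      induction hw using Submodule.span_induction with
      | mem x hx =>
        obtain ⟨i, rfl⟩ := hx
        refine Submodule.subset_span ⟨i, ?_⟩
        rw [← galFun_mul, inv_mul_cancel, galFun_one]
      | zero => simp
      | add x y _ _ hx hy => rw [map_add]; exact add_mem hx hy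
      | smul c x _ hx => rw [galFun_smul]; exact Submodule.smul_mem _ _ hx
    have := Multiset.map_le_map (f := galPt σ)
      (F.le_zeros _ hw' (galFun_ne_zero σ⁻¹ hw0))
    rwa [← zeros_galFun, galFun_inv] at this
  exact P := by
    classical
    obtain ⟨i, hi, hc⟩ := F.exact (galPt σ⁻¹ P)
    refine ⟨i, galFun_ne_zero σ hi, ?_⟩
    have hP : galPt σ (galPt σ⁻¹ P) = P := smul_inv_smul σ P
    rw [zeros_galFun, ← hP, Multiset.count_map_eq_count' _ _ (galPt_injective σ),
      Multiset.count_map_eq_count' _ _ (galPt_injective σ), hc]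

omit [IsDedekindDomain (Qbar ⊗[ℚ] A₀)] D₀ in
/-- The stabiliser of a function has finite index. -/
theorem exists_subgroup_galFun (t : (Qbar ⊗[ℚ] A₀)) :
    ∃ H : Subgroup GalQ, H.FiniteIndex ∧ ∀ σ ∈ H, galFun σ t = t := by
  induction t with
  | zero => exact ⟨⊤, inferInstance, fun σ _ => map_zero _⟩
  | tmul c f =>
    refine ⟨MulAction.stabilizer GalQ c, ?_, fun σ hσ => ?_⟩
    · exact ⟨by
        rw [MulAction.index_stabilizer]
        have hfin : (MulAction.orbit GalQ c).Finite := by
          refine ((minpoly ℚ c).rootSet_finite Qbar).subset ?_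
          rintro _ ⟨σ, rfl⟩
          rw [Polynomial.mem_rootSet_of_ne (minpoly.ne_zero (Algebra.IsIntegral.isIntegral _))]
          exact (Polynomial.aeval_algHom_apply (σ : Qbar →ₐ[ℚ] Qbar) _ _).trans
            (by rw [minpoly.aeval, map_zero])
        exact ((Set.ncard_pos hfin).2 (MulAction.nonempty_orbit c)).ne'⟩
    · rw [galFun_tmul, show σ c = c from hσ]
  | add x y hx hy =>
    obtain ⟨H, hH, h⟩ := hx
    obtain ⟨K, hK, k⟩ := hy
    exact ⟨H ⊓ K, inferInstance, fun σ hσ => by rw [map_add, h σ hσ.1, k σ hσ.2]⟩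

include D₀ in
/-- A family has only finitely many Galois conjugates. -/
theorem exists_level_family {ι : Type} [Finite ι] (F : BaseFamily (D₀.baseChange Qbar) ι) :
    ∃ S : Finset GalQ, ∀ σ : GalQ, ∃ τ ∈ S,
      (∀ i, galFun σ (F.W i) = galFun τ (F.W i)) ∧ F.R.map (galPt σ) = F.R.map (galPt τ) := by
  classical
  cases nonempty_fintype ι
  choose H hH hfix using fun i => exists_subgroup_galFun (F.W i)
  have hstab : ∀ P : Pt Qbar (Qbar ⊗[ℚ] A₀), (MulAction.stabilizer GalQ P).FiniteIndex := fun P => ⟨by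
    rw [MulAction.index_stabilizer]
    exact ((Set.ncard_pos (finite_orbit_pt D₀ P)).2 (MulAction.nonempty_orbit P)).ne'⟩
  set G : Subgroup GalQ :=
    (⨅ i, H i) ⊓ ⨅ P : {P // P ∈ F.R.toFinset}, MulAction.stabilizer GalQ P.1 with hG
  have : G.FiniteIndex := by
    have := Subgroup.finiteIndex_iInf hH
    have := Subgroup.finiteIndex_iInf (f := fun P : {P // P ∈ F.R.toFinset} =>
      MulAction.stabilizer GalQ P.1) fun P => hstab _
    infer_instance
  have : Fintype (GalQ ⧸ G) := Subgroup.fintypeQuotientOfFiniteIndex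
  refine ⟨Finset.univ.image fun q : GalQ ⧸ G => q.out, fun σ =>
    ⟨(QuotientGroup.mk σ : GalQ ⧸ G).out, Finset.mem_image_of_mem _ (Finset.mem_univ _), ?_⟩⟩
  obtain ⟨g, hg⟩ := QuotientGroup.mk_out_eq_mul G σ
  rw [hg]
  have hg1 := g.2.1
  have hg2 := g.2.2
  have hg1 : ∀ i, g.1 ∈ H i := Subgroup.mem_iInf.mp hg1
  have hg2 : ∀ P : {P // P ∈ F.R.toFinset}, g.1 ∈ MulAction.stabilizer GalQ P.1 :=
    Subgroup.mem_iInf.mp hg2
  refine ⟨fun i => by rw [galFun_mul, hfix i g (hg1 i)], Multiset.map_congr rfl fun P hP => ?_⟩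
  have : g.1 • P = P := hg2 ⟨P, Multiset.mem_toFinset.mpr hP⟩
  exact (congrArg (galPt σ) this).symm.trans (mul_smul σ g.1 P).symm

end Fermat.Agent.MW
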