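import Fermat.Agent.MW.Core.Defs2
import Mathlib.Data.Real.Basic
import Mathlib.Algebra.BigOperators.Group.Finset.Basic
import Mathlib.LinearAlgebra.Matrix.Determinant.Basic

/-!
# Global height data on a curve

The global consequences of the local height bounds that are used by the quadratic form.
`hO` is the height attached to `O`, `H` the height of the diagonal at a pair of distinct points,
`hF` the height of the image of a point by a family of sections.
-/

set_option autoImplicit false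

noncomputable section

namespace Fermat.Agent.MW

variable {K A : Type} [Field K] [CommRing A] [Algebra K A] [IsDedekindDomain A]

/-- The heights attached to `O`, to pairs of points and to families of sections, with the
relations between them that hold up to bounded errors. -/
structure HeightData (D : CurveBasis K A) where
  hO : Pt K A → ℝ
  H : Pt K A → Pt K A → ℝ
  hF : ∀ {ι : Type} [Fintype ι] [Nonempty ι], BaseFamily D ι → Pt K A → ℝ
  hO_none : hO none = 0
  hO_nonneg : ∀ P, 0 ≤ hO P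
  H_symm : ∀ P Q, H P Q = H Q P
  H_lower : ∃ C : ℝ, ∀ P Q, P ≠ Q → -C ≤ H P Q
  H_none : ∃ C : ℝ, ∀ P, P ≠ none → |H P none - hO P| ≤ C
  H_zeros : ∃ C : ℝ, ∀ (P : Pt K A) (t : A), t ≠ 0 → t ∈ D.lev D.embDeg →
    P ∉ D.zeros D.embDeg t →
    |((D.zeros D.embDeg t).map fun Q => hO P + hO Q - H P Q).sum| ≤ C
  hO_fibre : ∃ C : ℝ, ∀ φ ψ : A →ₐ[K] K, φ (D.e D.projDeg) = ψ (D.e D.projDeg) →
    |hO (some φ) - hO (some ψ)| ≤ C
  hF_family : ∀ {ι : Type} [Fintype ι] [Nonempty ι] (F : BaseFamily D ι), ∃ C : ℝ,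
    ∀ P, P ∉ F.R →
      |hF F P - ((F.k : ℝ) * D.embDeg * hO P - (F.R.map fun R => H P R).sum)| ≤ C
  hF_dual : ∀ [Nonempty (Fin D.projDeg)] (E : DualData D), ∃ C : ℝ,
    ∀ (φ : A →ₐ[K] K) (Qs : Multiset (Pt K A)),
      D.zeros D.projDeg (D.e D.projDeg - algebraMap K A (φ (D.e D.projDeg))) = some φ ::ₘ Qs →
      Polynomial.eval (φ (D.e D.projDeg)) E.Δ ≠ 0 → some φ ∉ Qs → some φ ∉ E.R →
      |hF E.toBaseFamily (some φ) -
        ((Qs.map fun Q => H (some φ) Q).sum - ((D.projDeg : ℝ) - 1) * hO (some φ))| ≤ C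
  hF_det : ∀ {d : ℕ} [Nonempty (Fin d)] (F : BaseFamily D (Fin d)), ∃ C : ℝ,
    ∀ P : Fin d → Pt K A, (∀ j, P j ∉ F.R) → Function.Injective P →
      Matrix.det (Matrix.of fun j i => D.evSec (F.k * D.embDeg) (P j) (F.W i)) ≠ 0 →
      (∑ q ∈ Finset.univ.filter (fun q : Fin d × Fin d => q.1 < q.2), H (P q.1) (P q.2)) ≤
        (∑ j, hF F (P j)) + C

end Fermat.Agent.MW
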