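import Fermat.Agent.MW.Height.Main
import Fermat.Agent.MW.Height.LocalGerm
import Fermat.Agent.MW.Local.Main

/-!
# Uniform local bounds over `ℚ̄`

A valuative identity valid on every valued extension field becomes, through ultrapowers, a bound
at each place of `ℚ̄` that is uniform in the points and zero at almost all places.
-/

set_option autoImplicit false

noncomputable section

open scoped TensorProduct
open Filter Fermat.Agent.MW.Omega

namespace Fermat.Agent.MW.CurveBasis

variable {A : Type} [CommRing A] [Algebra Qbar A] [IsDedekindDomain A] (D : CurveBasis Qbar A)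

/-- The distance to `O` is the inverse size of the coordinates, up to a bounded error. -/
theorem locBdd_dst_none :
    LocBdd fun (p : Place) (P : {P : Pt Qbar A // P ≠ none}) =>
      (D.embDeg : ℝ) * Real.log (D.dst (pabs p) none P) +
        Real.log (supMag (pabs p) (D.coord P)) := by
  refine locBdd_of_seq fun p x w h ↦ ?_
  have := overBase_valRing h
  have := isDedekindDomain_baseChange D Omega
  let P : ℕ → Pt Qbar A := fun n ↦ (x n).1
  have hne : germPt P ≠ none := fun h0 ↦ by
    rw [← germPt_of_ev_none (A := A) (P := fun _ ↦ none) (Eventually.of_forall fun _ ↦ rfl),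
      germPt_eq_iff D] at h0
    obtain ⟨n, hn⟩ := h0.exists
    exact (x n).2 hn
  have hd : Rep h ((D.baseChange Omega).dst (valRing p w h).valuation none (germPt P))
      fun n ↦ Real.log (D.dst (pabs (p n)) none (P n)) := by
    have h1 := rep_dst D (h := h) (P := fun _ ↦ none) (Q := P)
      (Eventually.of_forall fun n ↦ (x n).2.symm)
    rwa [germPt_of_ev_none (P := fun _ ↦ none) (Eventually.of_forall fun _ ↦ rfl)] at h1
  obtain ⟨C, hC⟩ := Rep.approx (D.dst_none (valRing p w h) (germPt P) hne)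
    ((hd.pow D.embDeg).mul (rep_coord D P)) Rep.one
  exact ⟨C, hC.mono fun n hn ↦ by simpa using hn⟩

/-- The value of a section is the product of the distances to its zeros, up to a bounded error. -/
theorem locBdd_evSec :
    LocBdd fun (p : Place) (x : {x : A × Pt Qbar A //
        x.1 ∈ D.lev D.embDeg ∧ D.evSec D.embDeg x.2 x.1 ≠ 0}) =>
      Real.log (pabs p (D.evSec D.embDeg x.1.2 x.1.1)) -
        (Real.log (supMag (pabs p) (D.coeffVec D.embDeg x.1.1)) +
          Real.log (supMag (pabs p) (D.coord x.1.2)) +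
          ((D.zeros D.embDeg x.1.1).map fun Q => Real.log (D.dst (pabs p) x.1.2 Q)).sum) := by
  refine locBdd_of_seq fun p x w h ↦ ?_
  have := overBase_valRing h
  have := isDedekindDomain_baseChange D Omega
  let t : ℕ → A := fun n ↦ (x n).1.1
  let P : ℕ → Pt Qbar A := fun n ↦ (x n).1.2
  have hev : ∀ n, D.evSec D.embDeg (P n) (t n) ≠ 0 := fun n ↦ (x n).2.2
  have ht0 : ∀ n, t n ≠ 0 := fun n h0 ↦ hev n (by rw [h0, map_zero])
  have htl : ∀ n, t n ∈ D.lev D.embDeg := fun n ↦ (x n).2.1
  choose Z hZ using fun n ↦ exists_fin_map (D.card_zeros (ht0 n) (htl n))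
  have hzeros := zeros_germSec D (t := t) (Fintype.card_fin D.embDeg) (fun i n ↦ Z n i)
    (Eventually.of_forall fun n ↦ ⟨htl n, ht0 n, hZ n⟩)
  have htΩ : germSec D D.embDeg t ≠ 0 :=
    germSec_ne_zero D (Eventually.of_forall fun n ↦ ⟨htl n, ht0 n⟩)
  have hsep : ∀ n i, P n ≠ Z n i := fun n i h0 ↦ hev n
    ((D.evSec_eq_zero_iff (ht0 n) (htl n) (P n)).2 (by
      rw [hZ n, h0]
      exact Multiset.mem_map_of_mem _ (Finset.mem_univ i)))
  have hL : Rep h ((valRing p w h).valuation
      ((D.baseChange Omega).evSec D.embDeg (germPt P) (germSec D D.embDeg t)))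
      fun n ↦ Real.log (pabs (p n) (D.evSec D.embDeg (P n) (t n))) := by
    rw [evSec_germSec D (Eventually.of_forall htl)]
    exact rep_toOmega (Eventually.of_forall hev)
  have hR := ((rep_coeffVec (h := h) D
    (Eventually.of_forall fun n ↦ ⟨htl n, ht0 n⟩)).mul (rep_coord D P)).mul
    (Rep.prod Finset.univ fun i _ ↦ rep_dst (h := h) D (P := P) (Q := fun n ↦ Z n i)
      (Eventually.of_forall fun n ↦ hsep n i))
  have key := D.valuation_evSec (valRing p w h) 1 (germSec D D.embDeg t) htΩ
    (by rw [one_mul]; exact germSec_mem_lev D _ t) (germPt P)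
  rw [one_mul, pow_one, hzeros, prod_map_univ] at key
  obtain ⟨C, hC⟩ := Rep.approx key hL hR
  refine ⟨C, hC.mono fun n hn ↦ ?_⟩
  show |_ - (_ + _ + ((D.zeros D.embDeg (t n)).map _).sum)| ≤ _
  rw [hZ n, sum_map_univ]
  exact hn

/-- The leading coefficient of a section against the sizes of its zeros. -/
theorem locBdd_lead :
    LocBdd fun (p : Place) (t : {t : A // t ∈ D.lev D.embDeg ∧ t ≠ 0}) =>
      (D.embDeg : ℝ) * Real.log (pabs p (D.coeff (D.deg t.1) t.1)) +
          ((D.zeros D.embDeg t.1).map fun Q => Real.log (supMag (pabs p) (D.coord Q))).sum -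
        (D.embDeg : ℝ) * Real.log (supMag (pabs p) (D.coeffVec D.embDeg t.1)) := by
  refine locBdd_of_seq fun p x w h ↦ ?_
  have := overBase_valRing h
  have := isDedekindDomain_baseChange D Omega
  let t : ℕ → A := fun n ↦ (x n).1
  have htl : ∀ n, t n ∈ D.lev D.embDeg := fun n ↦ (x n).2.1
  have ht0 : ∀ n, t n ≠ 0 := fun n ↦ (x n).2.2
  have htev : Ev fun n ↦ t n ∈ D.lev D.embDeg ∧ t n ≠ 0 :=
    Eventually.of_forall fun n ↦ ⟨htl n, ht0 n⟩
  choose Z hZ using fun n ↦ exists_fin_map (D.card_zeros (ht0 n) (htl n))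
  have hzeros := zeros_germSec D (t := t) (Fintype.card_fin D.embDeg) (fun i n ↦ Z n i)
    (Eventually.of_forall fun n ↦ ⟨htl n, ht0 n, hZ n⟩)
  obtain ⟨d, hd, hdΩ⟩ := exists_deg_germSec D htev
  have hc : Rep h ((valRing p w h).valuation ((D.baseChange Omega).coeff
      ((D.baseChange Omega).deg (germSec D D.embDeg t)) (germSec D D.embDeg t)))
      fun n ↦ Real.log (pabs (p n) (D.coeff (D.deg (t n)) (t n))) := by
    rw [hdΩ, coeff_germSec D d (Eventually.of_forall htl)]
    refine (rep_toOmega (hd.mono fun n hn ↦ ?_)).congr (hd.mono fun n hn ↦ by rw [hn])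
    rw [← hn]
    exact D.coeff_deg_ne_zero (ht0 n)
  have hL := (hc.pow D.embDeg).mul
    (Rep.prod Finset.univ fun i _ ↦ rep_coord (h := h) D fun n ↦ Z n i)
  have hR := (rep_coeffVec (h := h) D htev).pow D.embDeg
  have key := D.valuation_lead (valRing p w h) (germSec D D.embDeg t)
    (germSec_ne_zero D htev) (germSec_mem_lev D _ t)
  rw [hzeros, prod_map_univ] at key
  obtain ⟨C, hC⟩ := Rep.approx key hL hR
  refine ⟨C, hC.mono fun n hn ↦ ?_⟩
  show |_ + ((D.zeros D.embDeg (t n)).map _).sum - _| ≤ _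
  rw [hZ n, sum_map_univ]
  exact hn

/-- The projection controls the size of a point, up to a bounded error. -/
theorem locBdd_proj :
    LocBdd fun (p : Place) (φ : A →ₐ[Qbar] Qbar) =>
      (D.projDeg : ℝ) * Real.log (supMag (pabs p) (D.coord (some φ))) -
        (D.embDeg : ℝ) * Real.log (max 1 (pabs p (φ (D.e D.projDeg)))) := by
  refine locBdd_of_seq fun p φ w h ↦ ?_
  have := overBase_valRing h
  have := isDedekindDomain_baseChange D Omega
  have hL : Rep h (supMag (valRing p w h).valuation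
      ((D.baseChange Omega).coord (some (pointExt (germHom φ)))))
      fun n ↦ Real.log (supMag (pabs (p n)) (D.coord (some (φ n)))) := by
    rw [← germPt_of_ev_some (P := fun n ↦ some (φ n)) (Eventually.of_forall fun _ ↦ rfl)]
    exact rep_coord D _
  have hR : Rep h (max 1 ((valRing p w h).valuation
      (pointExt (germHom φ) (1 ⊗ₜ D.e D.projDeg))))
      fun n ↦ Real.log (max 1 (pabs (p n) (φ n (D.e D.projDeg)))) := by
    have h1 := rep_supMag (h := h) (x := fun n ↦ ![1, φ n (D.e D.projDeg)])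
      (Eventually.of_forall fun n h0 ↦ one_ne_zero (congrFun h0 0 : (1 : Qbar) = 0))
    have e : supMag (valRing p w h).valuation
        (fun i ↦ toOmega fun n ↦ ![1, φ n (D.e D.projDeg)] i) =
        max 1 ((valRing p w h).valuation (pointExt (germHom φ) (1 ⊗ₜ D.e D.projDeg))) := by
      have h0 : (valRing p w h).valuation (toOmega fun n ↦ ![1, φ n (D.e D.projDeg)] 0) = 1 := by
        show (valRing p w h).valuation (toOmega 1) = 1
        rw [map_one, map_one]
      have h1 : (valRing p w h).valuation (toOmega fun n ↦ ![1, φ n (D.e D.projDeg)] 1) =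
          (valRing p w h).valuation (pointExt (germHom φ) (1 ⊗ₜ D.e D.projDeg)) := by
        rw [germ_eval_eq]
        rfl
      refine le_antisymm (Finset.sup'_le _ _ fun i _ ↦ ?_) (max_le ?_ ?_)
      · fin_cases i
        · exact h0.trans_le (le_max_left _ _)
        · exact h1.trans_le (le_max_right _ _)
      · rw [← h0]
        exact Finset.le_sup' (fun i ↦ (valRing p w h).valuation
          (toOmega fun n ↦ ![1, φ n (D.e D.projDeg)] i)) (Finset.mem_univ 0)
      · rw [← h1]
        exact Finset.le_sup' (fun i ↦ (valRing p w h).valuation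
          (toOmega fun n ↦ ![1, φ n (D.e D.projDeg)] i)) (Finset.mem_univ 1)
    rw [e] at h1
    exact h1.congr (Eventually.of_forall fun n ↦ by rw [Mean.supMag_pair])
  obtain ⟨C, hC⟩ := Rep.approx (D.supMag_coord_proj (valRing p w h) (pointExt (germHom φ)))
    (hL.pow D.projDeg) (hR.pow D.embDeg)
  exact ⟨C, hC⟩

theorem rep_supMag_family {ι : Type} [Fintype ι] [Nonempty ι] (F : BaseFamily D ι)
    [IsDedekindDomain (Omega ⊗[Qbar] A)] {p : ℕ → Place} {w : ℝ} {h : Regime p w}
    (P : ℕ → Pt Qbar A) (hP : Ev fun n ↦ ∃ i, D.evSec (F.k * D.embDeg) (P n) (F.W i) ≠ 0) :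
    Rep h (supMag (valRing p w h).valuation fun i ↦
        (D.baseChange Omega).evSec (F.k * D.embDeg) (germPt P) (1 ⊗ₜ F.W i))
      fun n ↦ Real.log (supMag (pabs (p n))
        fun i ↦ D.evSec (F.k * D.embDeg) (P n) (F.W i)) := by
  have e : (fun i ↦ (D.baseChange Omega).evSec (F.k * D.embDeg) (germPt P) (1 ⊗ₜ F.W i)) =
      fun i ↦ toOmega fun n ↦ D.evSec (F.k * D.embDeg) (P n) (F.W i) := funext fun i ↦ by
    rw [← germSec_const_eq D (F.mem i),
      evSec_germSec D (t := fun _ ↦ F.W i) (Eventually.of_forall fun _ ↦ F.mem i)]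
  rw [e]
  exact rep_supMag (x := fun n i ↦ D.evSec (F.k * D.embDeg) (P n) (F.W i))
    (hP.mono fun n hn h0 ↦ hn.elim fun i hi ↦ hi (congrFun h0 i))

theorem exists_evSec_ne_zero {ι : Type} (F : BaseFamily D ι) {P : Pt Qbar A} (hP : P ∉ F.R) :
    ∃ i, D.evSec (F.k * D.embDeg) P (F.W i) ≠ 0 := by
  classical
  obtain ⟨i, hi0, hi⟩ := F.exact P
  refine ⟨i, fun h0 ↦ ?_⟩
  rw [D.evSec_eq_zero_iff hi0 (F.mem i), ← Multiset.one_le_count_iff_mem, hi,
    Multiset.count_eq_zero.2 hP] at h0
  omega

/-- A family evaluates to the distance to its base divisor, up to a bounded error. -/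
theorem locBdd_family {ι : Type} [Fintype ι] [Nonempty ι] (F : BaseFamily D ι) :
    LocBdd fun (p : Place) (P : {P : Pt Qbar A // P ∉ F.R}) =>
      Real.log (supMag (pabs p) fun i => D.evSec (F.k * D.embDeg) P (F.W i)) -
        ((F.k : ℝ) * Real.log (supMag (pabs p) (D.coord P)) +
          (F.R.map fun R => Real.log (D.dst (pabs p) P R)).sum) := by
  refine locBdd_of_seq fun p x w h ↦ ?_
  have := overBase_valRing h
  have := isDedekindDomain_baseChange D Omega
  let P : ℕ → Pt Qbar A := fun n ↦ (x n).1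
  obtain ⟨Z, hZ⟩ := exists_fin_map (m := F.R) rfl
  have hsep : ∀ n i, P n ≠ Z i := fun n i h0 ↦ (x n).2 (by
    show P n ∈ F.R
    rw [hZ, h0]
    exact Multiset.mem_map_of_mem _ (Finset.mem_univ i))
  have hR := ((rep_coord (h := h) D P).pow F.k).mul
    (Rep.prod Finset.univ fun i _ ↦ rep_dst (h := h) D (P := P) (Q := fun _ ↦ Z i)
      (Eventually.of_forall fun n ↦ hsep n i))
  have key := D.supMag_family (valRing p w h) F (germPt P)
  rw [hZ, prod_map_univ] at key
  simp only [← germPt_constant] at key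
  obtain ⟨C, hC⟩ := Rep.approx key
    (rep_supMag_family D F P (Eventually.of_forall fun n ↦ exists_evSec_ne_zero D F (x n).2)) hR
  refine ⟨C, hC.mono fun n hn ↦ ?_⟩
  show |Real.log (supMag (pabs (p n)) fun i => D.evSec (F.k * D.embDeg) (P n) (F.W i)) -
    ((F.k : ℝ) * Real.log (supMag (pabs (p n)) (D.coord (P n))) +
      (F.R.map fun R => Real.log (D.dst (pabs (p n)) (P n) R)).sum)| ≤ _
  have e : (F.R.map fun R => Real.log (D.dst (pabs (p n)) (P n) R)).sum =
      ∑ i, Real.log (D.dst (pabs (p n)) (P n) (Z i)) :=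
    (congrArg (fun m : Multiset (Pt Qbar A) ↦
      (m.map fun R => Real.log (D.dst (pabs (p n)) (P n) R)).sum) hZ).trans (sum_map_univ _ _)
  rw [e]
  exact hn

/-- A determinant of values of a family is small when the points are close. -/
theorem locBdd_det {d : ℕ} [Nonempty (Fin d)] (F : BaseFamily D (Fin d)) :
    ∃ C : Place →₀ ℝ, ∀ (p : Place) (P : Fin d → Pt Qbar A),
      Matrix.det (Matrix.of fun j i => D.evSec (F.k * D.embDeg) (P j) (F.W i)) ≠ 0 →
      Real.log (pabs p
          (Matrix.det (Matrix.of fun j i => D.evSec (F.k * D.embDeg) (P j) (F.W i)))) ≤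
        (∑ j, Real.log (supMag (pabs p) fun i => D.evSec (F.k * D.embDeg) (P j) (F.W i))) +
          (∑ q ∈ Finset.univ.filter (fun q : Fin d × Fin d => q.1 < q.2),
            Real.log (D.dst (pabs p) (P q.1) (P q.2))) + C p := by
  let X := {P : Fin d → Pt Qbar A //
    Matrix.det (Matrix.of fun j i => D.evSec (F.k * D.embDeg) (P j) (F.W i)) ≠ 0}
  obtain ⟨C, hC⟩ := exists_bound_of_seq (X := X) (fun p P ↦
    Real.log (pabs p
        (Matrix.det (Matrix.of fun j i => D.evSec (F.k * D.embDeg) (P.1 j) (F.W i)))) -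
      ((∑ j, Real.log (supMag (pabs p) fun i => D.evSec (F.k * D.embDeg) (P.1 j) (F.W i))) +
        (∑ q ∈ Finset.univ.filter (fun q : Fin d × Fin d => q.1 < q.2),
          Real.log (D.dst (pabs p) (P.1 q.1) (P.1 q.2))))) fun p x w h ↦ by
    have := overBase_valRing h
    have := isDedekindDomain_baseChange D Omega
    let P : Fin d → ℕ → Pt Qbar A := fun j n ↦ (x n).1 j
    have hdet : ∀ n,
        Matrix.det (Matrix.of fun j i => D.evSec (F.k * D.embDeg) (P j n) (F.W i)) ≠ 0 :=
      fun n ↦ (x n).2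
    have hrow : ∀ j n, ∃ i, D.evSec (F.k * D.embDeg) (P j n) (F.W i) ≠ 0 := fun j n ↦ by
      by_contra h0
      simp only [not_exists, not_not] at h0
      exact hdet n (Matrix.det_eq_zero_of_row_eq_zero j fun i ↦ h0 i)
    have hsep : ∀ q ∈ Finset.univ.filter (fun q : Fin d × Fin d => q.1 < q.2),
        ∀ n, P q.1 n ≠ P q.2 n := fun q hq n h0 ↦
      hdet n (Matrix.det_zero_of_row_eq (Finset.mem_filter.1 hq).2.ne (funext fun i ↦ by
        show D.evSec _ (P q.1 n) _ = D.evSec _ (P q.2 n) _
        rw [h0]))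
    have hL : Rep h ((valRing p w h).valuation (Matrix.det (Matrix.of fun j i =>
        (D.baseChange Omega).evSec (F.k * D.embDeg) (germPt (P j)) (1 ⊗ₜ F.W i))))
        fun n ↦ Real.log (pabs (p n)
          (Matrix.det (Matrix.of fun j i => D.evSec (F.k * D.embDeg) (P j n) (F.W i)))) := by
      have e : Matrix.det (Matrix.of fun j i =>
          (D.baseChange Omega).evSec (F.k * D.embDeg) (germPt (P j)) (1 ⊗ₜ F.W i)) =
          toOmega fun n ↦
            Matrix.det (Matrix.of fun j i => D.evSec (F.k * D.embDeg) (P j n) (F.W i)) := by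
        have h1 : (Matrix.of fun j i =>
            (D.baseChange Omega).evSec (F.k * D.embDeg) (germPt (P j)) (1 ⊗ₜ F.W i)) =
            toOmega.mapMatrix
              (Matrix.of fun j i n => D.evSec (F.k * D.embDeg) (P j n) (F.W i)) := by
          ext j i
          show (D.baseChange Omega).evSec _ _ _ = toOmega _
          rw [← germSec_const_eq D (F.mem i),
            evSec_germSec D (t := fun _ ↦ F.W i) (Eventually.of_forall fun _ ↦ F.mem i)]
          rfl
        rw [h1, ← RingHom.map_det]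
        congr 1
        funext n
        exact (RingHom.map_det (Pi.evalRingHom (fun _ : ℕ ↦ Qbar) n) _)
      rw [e]
      exact rep_toOmega (Eventually.of_forall hdet)
    have hR := (Rep.prod Finset.univ fun j _ ↦ rep_supMag_family D F (h := h) (P j)
      (Eventually.of_forall (hrow j))).mul
      (Rep.prod _ fun q hq ↦ rep_dst (h := h) D (P := P q.1) (Q := P q.2)
        (Eventually.of_forall (hsep q hq)))
    exact Rep.le (D.valuation_det_le (valRing p w h) F fun j ↦ germPt (P j)) hL hR
  refine ⟨C, fun p P hP ↦ ?_⟩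
  have h1 := hC p ⟨P, hP⟩
  linarith

/-- The trace-dual family measures the separation of the fibres of the projection. -/
theorem locBdd_dual [Nonempty (Fin D.projDeg)] (E : DualData D) :
    LocBdd fun (p : Place) (x : {x : (A →ₐ[Qbar] Qbar) × Multiset (Pt Qbar A) //
        D.zeros D.projDeg (D.e D.projDeg - algebraMap Qbar A (x.1 (D.e D.projDeg))) =
          some x.1 ::ₘ x.2 ∧
        Polynomial.eval (x.1 (D.e D.projDeg)) E.Δ ≠ 0}) =>
      (D.embDeg : ℝ) * Real.log (supMag (pabs p) fun i => x.1.1 (E.W i)) +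
          (D.embDeg : ℝ) * (x.1.2.map fun Q => Real.log (D.dst (pabs p) (some x.1.1) Q)).sum +
          ((D.projDeg : ℝ) - 1) * Real.log (supMag (pabs p) (D.coord (some x.1.1))) -
        (D.embDeg : ℝ) * Real.log (pabs p (Polynomial.eval (x.1.1 (D.e D.projDeg)) E.Δ)) := by
  refine locBdd_of_seq fun p x w h ↦ ?_
  have := overBase_valRing h
  have := isDedekindDomain_baseChange D Omega
  let φ : ℕ → (A →ₐ[Qbar] Qbar) := fun n ↦ (x n).1.1
  let c : ℕ → Qbar := fun n ↦ φ n (D.e D.projDeg)
  let t : ℕ → A := fun n ↦ D.e D.projDeg - algebraMap Qbar A (c n)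
  have hpd : D.projDeg ∉ D.gaps :=
    D.notMem_gaps_of_le (show 2 * D.genus ≤ 2 * D.genus + 1 by omega)
  have hpos : (0 : ℕ) < D.projDeg := Nat.succ_pos _
  have hlev : ∀ c : Qbar, D.e D.projDeg - algebraMap Qbar A c ∈ D.lev D.projDeg := fun c ↦ by
    refine Submodule.sub_mem _ (Submodule.subset_span ⟨D.projDeg, Set.self_mem_Iic, rfl⟩) ?_
    rw [Algebra.algebraMap_eq_smul_one, ← D.e_zero]
    exact Submodule.smul_mem _ _ (Submodule.subset_span ⟨0, Nat.zero_le _, rfl⟩)
  have hco : ∀ (i : ℕ) (c : Qbar), D.coeff i (D.e D.projDeg - algebraMap Qbar A c) =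
      D.coeff i (D.e D.projDeg) - c * D.coeff i 1 := fun i c ↦ by
    rw [map_sub, Algebra.algebraMap_eq_smul_one, map_smul, smul_eq_mul]
  have ht0 : ∀ n, t n ≠ 0 := fun n h0 ↦ by
    have h1 := hco D.projDeg (c n)
    rw [show D.e D.projDeg - algebraMap Qbar A (c n) = 0 from h0, map_zero, D.coeff_e hpd,
      ← D.e_zero, D.coeff_e D.zero_notMem, if_pos rfl, if_neg hpos.ne', mul_zero,
      sub_zero] at h1
    exact zero_ne_one h1
  have hcard : ∀ n, Multiset.card (x n).1.2 = D.projDeg - 1 := fun n ↦ by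
    have h1 := D.card_zeros (ht0 n) (hlev (c n))
    rw [(x n).2.1, Multiset.card_cons] at h1
    omega
  choose Z hZ using fun n ↦ exists_fin_map (hcard n)
  have hfib : (D.baseChange Omega).zeros D.projDeg (1 ⊗ₜ D.e D.projDeg -
      algebraMap Omega _ (pointExt (germHom φ) (1 ⊗ₜ D.e D.projDeg))) =
      some (pointExt (germHom φ)) ::ₘ
        Finset.univ.val.map fun i : Fin (D.projDeg - 1) ↦ germPt fun n ↦ Z n i := by
    have e : germSec D D.projDeg t = 1 ⊗ₜ D.e D.projDeg -
        algebraMap Omega _ (pointExt (germHom φ) (1 ⊗ₜ D.e D.projDeg)) := by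
      refine (D.baseChange Omega).ext_coeff fun i ↦ ?_
      rw [coeff_germSec D i (t := t) (Eventually.of_forall fun n ↦ hlev (c n)), map_sub,
        Algebra.TensorProduct.algebraMap_apply, D.baseChange_coeff, D.baseChange_coeff,
        germ_eval_eq, one_mul, Omega.algebraMap_apply, Omega.algebraMap_apply, Algebra.algebraMap_self,
        RingHom.id_apply, ← map_mul, ← map_sub]
      congr 1
      funext n
      exact hco i (c n)
    rw [← e, ← germPt_of_ev_some (P := fun n ↦ some (φ n)) (φ := φ)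
      (Eventually.of_forall fun _ ↦ rfl)]
    have h1 := zeros_germSec D (N := D.projDeg) (t := t)
      (ι := Option (Fin (D.projDeg - 1))) (by rw [Fintype.card_option, Fintype.card_fin]; omega)
      (fun o n ↦ o.elim (some (φ n)) (Z n))
      (Eventually.of_forall fun n ↦ ⟨hlev (c n), ht0 n, by
        show D.zeros D.projDeg (D.e D.projDeg - algebraMap Qbar A ((x n).1.1 (D.e D.projDeg))) = _
        rw [(x n).2.1, hZ n, map_univ_option]
        rfl⟩)
    rw [h1, map_univ_option]
    rfl
  have hc' : pointExt (germHom φ) ((1 : Omega) ⊗ₜ[Qbar] D.e D.projDeg) = toOmega c :=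
    germ_eval_eq φ _
  have hΔ : Polynomial.aeval (pointExt (germHom φ) ((1 : Omega) ⊗ₜ[Qbar] D.e D.projDeg)) E.Δ ≠ 0 := by
    rw [hc', aeval_toOmega, toOmega_ne_zero_iff]
    exact Eventually.of_forall fun n ↦ (x n).2.2
  have key := D.valuation_dual (valRing p w h) E (pointExt (germHom φ)) _ hfib hΔ
  rw [prod_map_univ] at key
  have hR : Rep h ((valRing p w h).valuation
      (Polynomial.aeval (pointExt (germHom φ) ((1 : Omega) ⊗ₜ[Qbar] D.e D.projDeg)) E.Δ) ^ D.embDeg)
      fun n ↦ (D.embDeg : ℝ) * Real.log (pabs (p n) (Polynomial.eval (c n) E.Δ)) := by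
    rw [hc', aeval_toOmega]
    exact (rep_toOmega (Eventually.of_forall fun n ↦ (x n).2.2)).pow _
  have hne := hR.ne_zero
  rw [← key] at hne
  have hemb : D.embDeg ≠ 0 := Nat.succ_ne_zero _
  have hne1 := left_ne_zero_of_mul hne
  have hWne : supMag (valRing p w h).valuation
      (fun i ↦ pointExt (germHom φ) ((1 : Omega) ⊗ₜ[Qbar] E.W i)) ≠ 0 :=
    fun h0 ↦ hne1 (by rw [h0, zero_pow hemb, zero_mul])
  have hdne : ∀ i : Fin (D.projDeg - 1), (D.baseChange Omega).dst (valRing p w h).valuation
      (some (pointExt (germHom φ))) (germPt fun n ↦ Z n i) ≠ 0 := fun i h0 ↦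
    hne1 (by rw [Finset.prod_eq_zero (Finset.mem_univ i) h0, zero_pow hemb, mul_zero])
  have hsome : germPt (fun n ↦ some (φ n)) = some (pointExt (germHom φ)) :=
    germPt_of_ev_some (Eventually.of_forall fun _ ↦ rfl)
  have hd : ∀ i : Fin (D.projDeg - 1),
      Rep h ((D.baseChange Omega).dst (valRing p w h).valuation
        (some (pointExt (germHom φ))) (germPt fun n ↦ Z n i))
        fun n ↦ Real.log (D.dst (pabs (p n)) (some (φ n)) (Z n i)) := fun i ↦ by
    have h2 := hdne i
    rw [← hsome] at h2 ⊢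
    exact rep_dst D (ev_ne_of_dst_ne_zero D h2)
  have hW : Rep h (supMag (valRing p w h).valuation
      (fun i ↦ pointExt (germHom φ) ((1 : Omega) ⊗ₜ[Qbar] E.W i)))
      fun n ↦ Real.log (supMag (pabs (p n)) fun i => φ n (E.W i)) := by
    have e : (fun i ↦ pointExt (germHom φ) ((1 : Omega) ⊗ₜ[Qbar] E.W i)) =
        fun i ↦ toOmega fun n ↦ φ n (E.W i) := funext fun i ↦ germ_eval_eq φ _
    rw [e] at hWne ⊢
    refine rep_supMag (x := fun n i ↦ φ n (E.W i))
      ((ev_not_iff _).2 fun h0 ↦ hWne (le_antisymm (Finset.sup'_le _ _ fun i _ ↦ ?_) zero_le))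
    have h2 : toOmega (fun n ↦ φ n (E.W i)) = 0 :=
      toOmega_eq_zero_iff.2 (h0.mono fun n hn ↦ congrFun hn i)
    show (valRing p w h).valuation (toOmega fun n ↦ φ n (E.W i)) ≤ 0
    rw [h2, map_zero]
  have hco' : Rep h (supMag (valRing p w h).valuation
      ((D.baseChange Omega).coord (some (pointExt (germHom φ)))))
      fun n ↦ Real.log (supMag (pabs (p n)) (D.coord (some (φ n)))) := by
    rw [← hsome]
    exact rep_coord D _
  have hL := ((hW.pow D.embDeg).mul
    ((Rep.prod Finset.univ fun i _ ↦ hd i).pow D.embDeg)).mul (hco'.pow (D.projDeg - 1))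
  obtain ⟨C, hC⟩ := Rep.approx key hL hR
  refine ⟨C, hC.mono fun n hn ↦ ?_⟩
  show |_ + _ * ((x n).1.2.map _).sum + _ - _| ≤ _
  rw [hZ n, sum_map_univ, ← Nat.cast_pred hpos]
  exact hn

end Fermat.Agent.MW.CurveBasis
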