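import Fermat.Agent.MW.Form.MeanAux
import Fermat.Agent.MW.Form.Gal
import Fermat.Agent.MW.Form.Fibre
import Fermat.Agent.MW.Form.HeightData
import Fermat.Agent.MW.Form.LocalBounds

/-!
# The global height data of a curve over `ℚ`

Averaging the uniform local bounds over all places gives the heights of points, of the diagonal
and of families, packaged as `HeightData`.
-/

set_option autoImplicit false

noncomputable section

open scoped TensorProduct

namespace Fermat.Agent.MW.Global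

open Mean

variable {A₀ : Type} [CommRing A₀] [Algebra ℚ A₀] (D₀ : CurveBasis ℚ A₀)

/-- The curve basis over `ℚ̄`. -/
abbrev DQ : CurveBasis Qbar (Qbar ⊗[ℚ] A₀) := D₀.baseChange Qbar

/-- Height of a point in the embedding. -/
def hpt (P : Pt Qbar (Qbar ⊗[ℚ] A₀)) : ℝ := hgt ((DQ D₀).coord P)

/-- Height of the diagonal at a pair of points. -/
def hdiag (P Q : Pt Qbar (Qbar ⊗[ℚ] A₀)) : ℝ :=
  hpt D₀ P + hpt D₀ Q - hgt (wedge ((DQ D₀).coord P) ((DQ D₀).coord Q))

/-- The local term of minus the diagonal height. -/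
def logDist (P Q : Pt Qbar (Qbar ⊗[ℚ] A₀)) : Idx → ℝ := fun v =>
  locLog (wedge ((DQ D₀).coord P) ((DQ D₀).coord Q)) v - locLog ((DQ D₀).coord P) v -
    locLog ((DQ D₀).coord Q) v

/-- The values of a family at a point. -/
def famVec {ι : Type} [IsDedekindDomain (Qbar ⊗[ℚ] A₀)] (F : BaseFamily (DQ D₀) ι)
    (P : Pt Qbar (Qbar ⊗[ℚ] A₀)) : ι → Qbar :=
  fun i => (DQ D₀).evSec (F.k * (DQ D₀).embDeg) P (F.W i)

theorem isAdelic_logDist (P Q : Pt Qbar (Qbar ⊗[ℚ] A₀)) : IsAdelic (logDist D₀ P Q) :=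
  ((isAdelic_locLog _).sub (isAdelic_locLog _)).sub (isAdelic_locLog _)

theorem gmean_logDist (P Q : Pt Qbar (Qbar ⊗[ℚ] A₀)) :
    gmean (logDist D₀ P Q) = -hdiag D₀ P Q := by
  change gmean (fun v => _ - _ - _) = _
  rw [gmean_sub ((isAdelic_locLog _).sub (isAdelic_locLog _)) (isAdelic_locLog _),
    gmean_sub (isAdelic_locLog _) (isAdelic_locLog _), ← hgt_eq_gmean, ← hgt_eq_gmean,
    ← hgt_eq_gmean, hdiag, hpt, hpt]
  ring

theorem log_supMag_coord (p : Place) (σ : GalQ) (P : Pt Qbar (Qbar ⊗[ℚ] A₀)) :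
    Real.log (supMag (pabs p) ((DQ D₀).coord (galPt σ P))) = locLog ((DQ D₀).coord P) (p, σ) := by
  rw [coord_galPt, locLog_smul_galois]

variable [IsDedekindDomain (Qbar ⊗[ℚ] A₀)]

omit [IsDedekindDomain (Qbar ⊗[ℚ] A₀)] in
/-- Distinct points have independent coordinate vectors. -/
theorem wedge_coord_ne_zero {P Q : Pt Qbar (Qbar ⊗[ℚ] A₀)} (h : P ≠ Q) :
    wedge ((DQ D₀).coord P) ((DQ D₀).coord Q) ≠ 0 := fun hw =>
  h ((DQ D₀).eq_of_wedge_coord_eq_zero P Q fun i j => congrFun hw (i, j))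

omit [IsDedekindDomain (Qbar ⊗[ℚ] A₀)] in
theorem log_dst_galPt {P Q : Pt Qbar (Qbar ⊗[ℚ] A₀)} (h : P ≠ Q) (p : Place) (σ : GalQ) :
    Real.log ((DQ D₀).dst (pabs p) (galPt σ P) (galPt σ Q)) = logDist D₀ P Q (p, σ) := by
  have hP : supMag (absv (p, σ)) ((DQ D₀).coord P) ≠ 0 :=
    (Mean.supMag_pos _ ((DQ D₀).coord_ne_zero P)).ne'
  have hQ : supMag (absv (p, σ)) ((DQ D₀).coord Q) ≠ 0 :=
    (Mean.supMag_pos _ ((DQ D₀).coord_ne_zero Q)).ne'
  have hW : supMag (absv (p, σ)) (wedge ((DQ D₀).coord P) ((DQ D₀).coord Q)) ≠ 0 :=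
    (Mean.supMag_pos _ (wedge_coord_ne_zero D₀ h)).ne'
  rw [CurveBasis.dst, coord_galPt, coord_galPt, ← smul_wedge]
  change Real.log (supMag (absv (p, σ)) _ / (supMag (absv (p, σ)) _ * supMag (absv (p, σ)) _)) = _
  rw [Real.log_div hW (mul_ne_zero hP hQ), Real.log_mul hP hQ, logDist, locLog, locLog, locLog]
  ring

omit [IsDedekindDomain (Qbar ⊗[ℚ] A₀)] in
theorem hdiag_symm (P Q : Pt Qbar (Qbar ⊗[ℚ] A₀)) : hdiag D₀ P Q = hdiag D₀ Q P := by
  have h : wedge ((DQ D₀).coord Q) ((DQ D₀).coord P) =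
      (-1 : Qbar) • wedge ((DQ D₀).coord P) ((DQ D₀).coord Q) := by
    funext i; simp [wedge]; ring
  rw [hdiag, hdiag, h, hgt_smul _ (neg_ne_zero.mpr one_ne_zero)]
  ring

omit [IsDedekindDomain (Qbar ⊗[ℚ] A₀)] in
theorem neg_log_two_le_hdiag {P Q : Pt Qbar (Qbar ⊗[ℚ] A₀)} (h : P ≠ Q) :
    -Real.log 2 ≤ hdiag D₀ P Q := by
  have hle : gmean (logDist D₀ P Q) ≤ gmean (atInfinity (Real.log 2)) := by
    refine gmean_mono (isAdelic_logDist D₀ P Q) (isAdelic_atInfinity _) fun v => ?_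
    rw [← log_triangleConst]
    have hP := Mean.supMag_pos (absv v) ((DQ D₀).coord_ne_zero P)
    have hQ := Mean.supMag_pos (absv v) ((DQ D₀).coord_ne_zero Q)
    have hW := Mean.supMag_pos (absv v) (wedge_coord_ne_zero D₀ h)
    have h1 := Real.log_le_log hW (supMag_wedge_le v ((DQ D₀).coord P) ((DQ D₀).coord Q))
    rw [Real.log_mul (zero_lt_one.trans_le (one_le_triangleConst v)).ne'
      (mul_ne_zero hP.ne' hQ.ne'), Real.log_mul hP.ne' hQ.ne'] at h1
    simp only [logDist, locLog]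
    linarith
  rw [gmean_logDist, gmean_atInfinity] at hle
  linarith

omit [IsDedekindDomain (Qbar ⊗[ℚ] A₀)] in
theorem hpt_none : hpt D₀ none = 0 := by
  rw [hpt, hgt_eq_gmean, show locLog ((DQ D₀).coord none) = fun _ => 0 from
    funext fun v => ?_, gmean_zero]
  have ha : (DQ D₀).embDeg ∉ (DQ D₀).gaps :=
    (DQ D₀).notMem_gaps_of_le (by simp only [CurveBasis.embDeg]; omega)
  refine locLog_eq_zero_of_zero_one _ (fun i => ?_) (Fin.last _) ?_ v
  · show (DQ D₀).coeff _ ((DQ D₀).e i) = 0 ∨ (DQ D₀).coeff _ ((DQ D₀).e i) = 1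
    by_cases hi : (i : ℕ) ∈ (DQ D₀).gaps
    · left; rw [(DQ D₀).e_gap hi, map_zero]
    · rw [(DQ D₀).coeff_e hi]
      split_ifs <;> simp
  · show (DQ D₀).coeff _ ((DQ D₀).e (Fin.last (DQ D₀).embDeg : Fin _)) = 1
    rw [Fin.val_last, (DQ D₀).coeff_e ha, if_pos rfl]

omit [IsDedekindDomain (Qbar ⊗[ℚ] A₀)] in
/-- The degree of the embedding is positive. -/
theorem embDeg_pos : (0 : ℝ) < (DQ D₀).embDeg := by
  simp only [CurveBasis.embDeg]; positivity

/-- The diagonal height at `O`. -/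
theorem exists_hdiag_none : ∃ C : ℝ, ∀ P : Pt Qbar (Qbar ⊗[ℚ] A₀), P ≠ none →
    |(DQ D₀).embDeg * hdiag D₀ P none - hpt D₀ P| ≤ C := by
  obtain ⟨C, hC⟩ := (DQ D₀).locBdd_dst_none
  refine ⟨bdTotal C, fun P hP => ?_⟩
  have hF : IsAdelic fun v => ((DQ D₀).embDeg : ℝ) * logDist D₀ none P v +
      locLog ((DQ D₀).coord P) v :=
    ((isAdelic_logDist D₀ _ _).const_mul _).add (isAdelic_locLog _)
  have h := abs_gmean_le_bdTotal hF C fun p σ => by
    have := hC p ⟨galPt σ P, fun h => hP (galPt_injective σ (h.trans (galPt_none σ).symm))⟩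
    rw [← log_dst_galPt D₀ (Ne.symm hP), galPt_none, ← log_supMag_coord]
    exact this
  rw [gmean_add ((isAdelic_logDist D₀ _ _).const_mul _) (isAdelic_locLog _),
    gmean_const_mul (isAdelic_logDist D₀ _ _), gmean_logDist, ← hgt_eq_gmean,
    hdiag_symm] at h
  rw [← abs_neg] at h
  refine le_trans (le_of_eq ?_) h
  rw [hpt]
  exact congrArg abs (by ring)

/-- The zeros of a section, paired with a point. -/
theorem exists_sum_zeros : ∃ C : ℝ, ∀ (P : Pt Qbar (Qbar ⊗[ℚ] A₀)) (t : Qbar ⊗[ℚ] A₀),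
    t ≠ 0 → t ∈ (DQ D₀).lev (DQ D₀).embDeg → P ∉ (DQ D₀).zeros (DQ D₀).embDeg t →
    |((DQ D₀).zeros (DQ D₀).embDeg t).map
      (fun Q => hpt D₀ P / (DQ D₀).embDeg + hpt D₀ Q / (DQ D₀).embDeg - hdiag D₀ P Q) |>.sum| ≤
      C := by
  obtain ⟨C₁, hC₁⟩ := (DQ D₀).locBdd_evSec
  obtain ⟨C₂, hC₂⟩ := (DQ D₀).locBdd_lead
  refine ⟨bdTotal C₁ + bdTotal C₂ / (DQ D₀).embDeg, fun P t ht htl hP => ?_⟩
  set Z := (DQ D₀).zeros (DQ D₀).embDeg t with hZ
  have hev : (DQ D₀).evSec (DQ D₀).embDeg P t ≠ 0 := fun h => hP (((DQ D₀).evSec_eq_zero_iff ht htl P).mp h)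
  have hlead : (DQ D₀).coeff ((DQ D₀).deg t) t ≠ 0 := (DQ D₀).coeff_deg_ne_zero ht
  have hZdist : ∀ Q ∈ Z, IsAdelic (logDist D₀ P Q) := fun Q _ => isAdelic_logDist D₀ P Q
  have hZcoord : ∀ Q ∈ Z, IsAdelic (locLog ((DQ D₀).coord Q)) := fun Q _ => isAdelic_locLog _
  have hF1 : IsAdelic fun v => logAbs ((DQ D₀).evSec (DQ D₀).embDeg P t) v -
      (locLog ((DQ D₀).coeffVec (DQ D₀).embDeg t) v + locLog ((DQ D₀).coord P) v +
        (Z.map fun Q => logDist D₀ P Q v).sum) :=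
    (isAdelic_logAbs _).sub
      (((isAdelic_locLog _).add (isAdelic_locLog _)).add (IsAdelic.multiset_sum Z _ hZdist))
  have h1 := abs_gmean_le_bdTotal hF1 C₁ fun p σ => by
    have hev' : (DQ D₀).evSec (DQ D₀).embDeg (galPt σ P) (galFun σ t) ≠ 0 := by
      rw [evSec_galFun]; exact (map_ne_zero_iff σ σ.injective).mpr hev
    have := hC₁ p ⟨(galFun σ t, galPt σ P), galFun_mem_lev D₀ σ htl, hev'⟩
    simp only [evSec_galFun, coeffVec_galFun, coord_galPt, zeros_galFun, Multiset.map_map] at this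
    rw [← hZ, Multiset.map_congr rfl fun Q hQ => show
      ((fun Q => Real.log ((DQ D₀).dst (pabs p) (galPt σ P) Q)) ∘ galPt σ) Q = logDist D₀ P Q (p, σ) from
      log_dst_galPt D₀ (P := P) (Q := Q) (fun h => hP (h ▸ hQ)) p σ] at this
    exact this
  rw [gmean_sub (isAdelic_logAbs _)
      (((isAdelic_locLog _).add (isAdelic_locLog _)).add (IsAdelic.multiset_sum Z _ hZdist)),
    gmean_add ((isAdelic_locLog _).add (isAdelic_locLog _)) (IsAdelic.multiset_sum Z _ hZdist),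
    gmean_add (isAdelic_locLog _) (isAdelic_locLog _), product_formula hev, ← hgt_eq_gmean,
    ← hgt_eq_gmean, gmean_multiset_sum Z _ hZdist] at h1
  simp only [gmean_logDist, Multiset.sum_map_neg] at h1
  have hF2 : IsAdelic fun v => ((DQ D₀).embDeg : ℝ) * logAbs ((DQ D₀).coeff ((DQ D₀).deg t) t) v +
      (Z.map fun Q => locLog ((DQ D₀).coord Q) v).sum -
      ((DQ D₀).embDeg : ℝ) * locLog ((DQ D₀).coeffVec (DQ D₀).embDeg t) v :=
    (((isAdelic_logAbs _).const_mul _).add (IsAdelic.multiset_sum Z _ hZcoord)).sub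
      ((isAdelic_locLog _).const_mul _)
  have h2 := abs_gmean_le_bdTotal hF2 C₂ fun p σ => by
    have := hC₂ p ⟨galFun σ t, galFun_mem_lev D₀ σ htl, galFun_ne_zero σ ht⟩
    simp only [deg_galFun, coeff_galFun, coeffVec_galFun, zeros_galFun, Multiset.map_map,
      Function.comp_def, log_supMag_coord] at this
    rw [← hZ] at this
    exact this
  rw [gmean_sub (((isAdelic_logAbs _).const_mul _).add (IsAdelic.multiset_sum Z _ hZcoord))
      ((isAdelic_locLog _).const_mul _),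
    gmean_add ((isAdelic_logAbs _).const_mul _) (IsAdelic.multiset_sum Z _ hZcoord),
    gmean_const_mul (isAdelic_logAbs _), product_formula hlead,
    gmean_const_mul (isAdelic_locLog _), gmean_multiset_sum Z _ hZcoord,
    ← hgt_eq_gmean] at h2
  simp only [← hgt_eq_gmean] at h2
  have hcard : (Multiset.card Z : ℝ) = (DQ D₀).embDeg := by rw [hZ, (DQ D₀).card_zeros ht htl]
  have ha := embDeg_pos D₀
  have hsum : (Z.map fun Q => hpt D₀ P / (DQ D₀).embDeg + hpt D₀ Q / (DQ D₀).embDeg - hdiag D₀ P Q).sum =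
      hpt D₀ P + (Z.map fun Q => hpt D₀ Q).sum / (DQ D₀).embDeg -
        (Z.map fun Q => hdiag D₀ P Q).sum := by
    rw [Multiset.sum_map_sub, Multiset.sum_map_add, Multiset.map_const', Multiset.sum_replicate,
      nsmul_eq_mul, hcard, mul_div_cancel₀ _ ha.ne', Multiset.sum_map_div]
  rw [hsum]
  have h1' := abs_le.mp h1
  have h2' := abs_le.mp h2
  have hh : ∀ Q, hgt ((DQ D₀).coord Q) = hpt D₀ Q := fun Q => rfl
  simp only [hh] at h1' h2'
  set S := (Z.map fun Q => hpt D₀ Q).sum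
  have hd1 : S / (DQ D₀).embDeg ≤ hgt ((DQ D₀).coeffVec (DQ D₀).embDeg t) + bdTotal C₂ / (DQ D₀).embDeg := by
    rw [div_le_iff₀ ha, add_mul, div_mul_cancel₀ _ ha.ne']; linarith [h2'.2]
  have hd2 : hgt ((DQ D₀).coeffVec (DQ D₀).embDeg t) - bdTotal C₂ / (DQ D₀).embDeg ≤ S / (DQ D₀).embDeg := by
    rw [le_div_iff₀ ha, sub_mul, div_mul_cancel₀ _ ha.ne']; linarith [h2'.1]
  rw [abs_le]
  constructor <;> linarith [h1'.1, h1'.2]

/-- The height and the projection. -/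
theorem exists_hpt_proj : ∃ C : ℝ, ∀ φ : Qbar ⊗[ℚ] A₀ →ₐ[Qbar] Qbar,
    |((DQ D₀).projDeg : ℝ) * hpt D₀ (some φ) -
      (DQ D₀).embDeg * hgt ![1, φ ((DQ D₀).e (DQ D₀).projDeg)]| ≤ C := by
  obtain ⟨C, hC⟩ := (DQ D₀).locBdd_proj
  refine ⟨bdTotal C, fun φ => ?_⟩
  have hF : IsAdelic fun v => ((DQ D₀).projDeg : ℝ) * locLog ((DQ D₀).coord (some φ)) v -
      ((DQ D₀).embDeg : ℝ) * locLog ![1, φ ((DQ D₀).e (DQ D₀).projDeg)] v :=
    ((isAdelic_locLog _).const_mul _).sub ((isAdelic_locLog _).const_mul _)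
  have h := abs_gmean_le_bdTotal hF C fun p σ => by
    obtain ⟨ψ, hψ⟩ := exists_galPt_eq_some σ φ
    have h1 := hC p ψ
    beta_reduce at h1
    rw [show Real.log (supMag (pabs p) ((DQ D₀).coord (some ψ))) = locLog ((DQ D₀).coord (some φ)) (p, σ) by
        rw [← hψ]; exact log_supMag_coord D₀ p σ (some φ),
      proj_galPt D₀ σ φ ψ hψ, ← supMag_pair (pabs p)] at h1
    have h3 : σ • ![1, φ ((DQ D₀).e (DQ D₀).projDeg)] = ![1, σ (φ ((DQ D₀).e (DQ D₀).projDeg))] := by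
      funext i
      fin_cases i
      · exact map_one σ
      · rfl
    rw [← h3, locLog_smul_galois] at h1
    exact h1
  rw [gmean_sub ((isAdelic_locLog _).const_mul _) ((isAdelic_locLog _).const_mul _),
    gmean_const_mul (isAdelic_locLog _), gmean_const_mul (isAdelic_locLog _), ← hgt_eq_gmean,
    ← hgt_eq_gmean] at h
  exact h

/-- The height of the image by a family. -/
theorem exists_hgt_famVec {ι : Type} [Fintype ι] [Nonempty ι] (F : BaseFamily (DQ D₀) ι) :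
    ∃ C : ℝ, ∀ P : Pt Qbar (Qbar ⊗[ℚ] A₀), P ∉ F.R →
      |hgt (famVec D₀ F P) -
        ((F.k : ℝ) * hpt D₀ P - (F.R.map fun R => hdiag D₀ P R).sum)| ≤ C := by
  classical
  obtain ⟨S, hS⟩ := exists_level_family D₀ F
  choose Cτ hCτ using fun τ : GalQ => (DQ D₀).locBdd_family (galFamily D₀ τ F)
  refine ⟨∑ τ ∈ S, bdTotal (Cτ τ), fun P hP => ?_⟩
  set C : Place →₀ ℝ := ∑ τ ∈ S, (Cτ τ).mapRange (fun c => max c 0) (max_self 0)
  have hFR : ∀ R ∈ F.R, IsAdelic (logDist D₀ P R) := fun R _ => isAdelic_logDist D₀ P R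
  have hF : IsAdelic fun v => locLog (famVec D₀ F P) v -
      ((F.k : ℝ) * locLog ((DQ D₀).coord P) v + (F.R.map fun R => logDist D₀ P R v).sum) :=
    (isAdelic_locLog _).sub
      (((isAdelic_locLog _).const_mul _).add (IsAdelic.multiset_sum F.R _ hFR))
  have h := abs_gmean_le_bdTotal hF C fun p σ => by
    obtain ⟨τ, hτ, hW, hR⟩ := hS σ
    have hmem : galPt σ P ∉ (galFamily D₀ τ F).R := by
      change galPt σ P ∉ F.R.map (galPt τ)
      rw [← hR, Multiset.mem_map_of_injective (galPt_injective σ)]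
      exact hP
    have h1 := hCτ τ p ⟨galPt σ P, hmem⟩
    change |Real.log (supMag (pabs p) fun i => (DQ D₀).evSec (F.k * (DQ D₀).embDeg) (galPt σ P)
        (galFun τ (F.W i))) - ((F.k : ℝ) * Real.log (supMag (pabs p) ((DQ D₀).coord (galPt σ P))) +
        ((F.R.map (galPt τ)).map fun R => Real.log ((DQ D₀).dst (pabs p) (galPt σ P) R)).sum)| ≤ _ at h1
    rw [show (fun i => (DQ D₀).evSec (F.k * (DQ D₀).embDeg) (galPt σ P) (galFun τ (F.W i))) =
        σ • famVec D₀ F P by funext i; rw [← hW]; exact evSec_galFun D₀ σ _ P _,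
      ← hR, log_supMag_coord, locLog_smul_galois, Multiset.map_map,
      Multiset.map_congr rfl fun R hR' => show
        ((fun R => Real.log ((DQ D₀).dst (pabs p) (galPt σ P) R)) ∘ galPt σ) R = logDist D₀ P R (p, σ)
        from log_dst_galPt D₀ (P := P) (Q := R) (fun h => hP (h ▸ hR')) p σ] at h1
    refine h1.trans (le_trans (le_max_left _ 0) ?_)
    rw [show C p = ∑ τ ∈ S, max (Cτ τ p) 0 by simp [C]]
    exact Finset.single_le_sum (f := fun τ => max (Cτ τ p) 0) (fun _ _ => le_max_right _ _) hτ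
  rw [gmean_sub (isAdelic_locLog _)
      (((isAdelic_locLog _).const_mul _).add (IsAdelic.multiset_sum F.R _ hFR)),
    gmean_add ((isAdelic_locLog _).const_mul _) (IsAdelic.multiset_sum F.R _ hFR),
    gmean_const_mul (isAdelic_locLog _), ← hgt_eq_gmean, ← hgt_eq_gmean,
    gmean_multiset_sum F.R _ hFR] at h
  simp only [gmean_logDist, Multiset.sum_map_neg] at h
  rw [← sub_eq_add_neg] at h
  refine h.trans (le_of_eq ?_)
  have hnn : ∀ p, 0 ≤ C p := fun p => by
    rw [show C p = ∑ τ ∈ S, max (Cτ τ p) 0 by simp [C]]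
    exact Finset.sum_nonneg fun _ _ => le_max_right _ _
  have h0 : ∀ (C' : Place →₀ ℝ) (T : Finset Place), C'.support ⊆ T →
      bdTotal C' = ∑ p ∈ T, max (C' p) 0 := fun C' T hT =>
    Finsupp.sum_of_support_subset C' hT (fun _ c => max c 0) fun _ _ => by simp
  set T := C.support ∪ S.biUnion fun τ => (Cτ τ).support
  rw [h0 C T Finset.subset_union_left, Finset.sum_congr rfl fun τ hτ =>
    h0 (Cτ τ) T ((Finset.subset_biUnion_of_mem (fun τ => (Cτ τ).support) hτ).trans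
      Finset.subset_union_right), Finset.sum_comm]
  refine Finset.sum_congr rfl fun p _ => ?_
  rw [max_eq_left (hnn p)]
  simp [C]

/-- The determinant bound. -/
theorem exists_det_bound {d : ℕ} [Nonempty (Fin d)] (F : BaseFamily (DQ D₀) (Fin d)) :
    ∃ C : ℝ, ∀ P : Fin d → Pt Qbar (Qbar ⊗[ℚ] A₀), Function.Injective P →
      Matrix.det (Matrix.of fun j i =>
        (DQ D₀).evSec (F.k * (DQ D₀).embDeg) (P j) (F.W i)) ≠ 0 →
      (∑ q ∈ Finset.univ.filter (fun q : Fin d × Fin d => q.1 < q.2),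
          hdiag D₀ (P q.1) (P q.2)) ≤ (∑ j, hgt (famVec D₀ F (P j))) + C := by
  classical
  obtain ⟨S, hS⟩ := exists_level_family D₀ F
  choose Cτ hCτ using fun τ : GalQ => (DQ D₀).locBdd_det (galFamily D₀ τ F)
  set C : Place →₀ ℝ := ∑ τ ∈ S, (Cτ τ).mapRange (fun c => max c 0) (max_self 0)
  refine ⟨bdTotal C, fun P hinj hdet => ?_⟩
  set M := Matrix.of fun j i => (DQ D₀).evSec (F.k * (DQ D₀).embDeg) (P j) (F.W i) with hM
  set T := Finset.univ.filter (fun q : Fin d × Fin d => q.1 < q.2)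
  have hj : ∀ j ∈ (Finset.univ : Finset (Fin d)), IsAdelic (locLog (famVec D₀ F (P j))) :=
    fun j _ => isAdelic_locLog _
  have hq : ∀ q ∈ T, IsAdelic (logDist D₀ (P q.1) (P q.2)) := fun q _ => isAdelic_logDist D₀ _ _
  have hF : IsAdelic fun v => logAbs M.det v - ((∑ j, locLog (famVec D₀ F (P j)) v) +
      ∑ q ∈ T, logDist D₀ (P q.1) (P q.2) v) :=
    (isAdelic_logAbs _).sub ((IsAdelic.finset_sum _ _ hj).add (IsAdelic.finset_sum T _ hq))
  have h := gmean_le_bdTotal hF C fun p σ => by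
    obtain ⟨τ, hτ, hW, -⟩ := hS σ
    have hmat : Matrix.of (fun j i => (DQ D₀).evSec ((galFamily D₀ τ F).k * (DQ D₀).embDeg) (galPt σ (P j))
        ((galFamily D₀ τ F).W i)) = M.map σ := by
      ext j i
      simp only [Matrix.of_apply, Matrix.map_apply, hM]
      change (DQ D₀).evSec (F.k * (DQ D₀).embDeg) (galPt σ (P j)) (galFun τ (F.W i)) = _
      rw [← hW]
      exact evSec_galFun D₀ σ _ _ _
    have hdet' : (M.map σ).det = σ M.det := (RingHom.map_det (σ : Qbar →+* Qbar) M).symm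
    have h1 := hCτ τ p (fun j => galPt σ (P j))
      (by rw [hmat, hdet']; exact (map_ne_zero_iff σ σ.injective).mpr hdet)
    rw [hmat, hdet', logAbs_apply, Finset.sum_congr rfl fun q (hq : q ∈ T) =>
      log_dst_galPt D₀ (hinj.ne (ne_of_lt (Finset.mem_filter.mp hq).2)) p σ] at h1
    have h2 : ∀ j, Real.log (supMag (pabs p) fun i =>
        (DQ D₀).evSec ((galFamily D₀ τ F).k * (DQ D₀).embDeg) (galPt σ (P j)) ((galFamily D₀ τ F).W i)) =
        locLog (famVec D₀ F (P j)) (p, σ) := fun j => by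
      rw [← locLog_smul_galois]
      congr 2
      funext i
      change (DQ D₀).evSec (F.k * (DQ D₀).embDeg) (galPt σ (P j)) (galFun τ (F.W i)) = _
      rw [← hW]
      exact evSec_galFun D₀ σ _ _ _
    simp only [h2] at h1
    have h3 : Cτ τ p ≤ C p := by
      refine (le_max_left _ 0).trans ?_
      rw [show C p = ∑ τ ∈ S, max (Cτ τ p) 0 by simp [C]]
      exact Finset.single_le_sum (f := fun τ => max (Cτ τ p) 0) (fun _ _ => le_max_right _ _) hτ
    linarith
  rw [gmean_sub (isAdelic_logAbs _)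
      ((IsAdelic.finset_sum _ _ hj).add (IsAdelic.finset_sum T _ hq)),
    gmean_add (IsAdelic.finset_sum _ _ hj) (IsAdelic.finset_sum T _ hq), product_formula hdet,
    gmean_sum _ _ hj, gmean_sum T _ hq] at h
  simp only [gmean_logDist, ← hgt_eq_gmean, Finset.sum_neg_distrib] at h
  linarith

theorem zeros_fibre_galPt (σ : GalQ) (φ ψ : Qbar ⊗[ℚ] A₀ →ₐ[Qbar] Qbar)
    (hψ : galPt σ (some φ) = some ψ) :
    (DQ D₀).zeros (DQ D₀).projDeg
        ((DQ D₀).e (DQ D₀).projDeg - algebraMap Qbar _ (ψ ((DQ D₀).e (DQ D₀).projDeg))) =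
      ((DQ D₀).zeros (DQ D₀).projDeg
        ((DQ D₀).e (DQ D₀).projDeg - algebraMap Qbar _ (φ ((DQ D₀).e (DQ D₀).projDeg)))).map
        (galPt σ) := by
  rw [← zeros_galFun]
  refine congrArg _ ?_
  rw [map_sub, galFun_e, galFun_algebraMap, proj_galPt D₀ σ φ ψ hψ]

/-- Conjugation of the values of the trace-dual family. -/
theorem dual_value_galois (E : DualData (DQ D₀)) (φ ψ : Qbar ⊗[ℚ] A₀ →ₐ[Qbar] Qbar)
    (Qs : Multiset (Pt Qbar (Qbar ⊗[ℚ] A₀))) (σ : GalQ) (hψ : galPt σ (some φ) = some ψ)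
    (hz : (DQ D₀).zeros (DQ D₀).projDeg ((DQ D₀).e (DQ D₀).projDeg -
      algebraMap Qbar _ (φ ((DQ D₀).e (DQ D₀).projDeg))) = some φ ::ₘ Qs)
    (hP : some φ ∉ Qs) :
    (∃ i, φ (E.W i) ≠ 0 ∨ Polynomial.eval (φ ((DQ D₀).e (DQ D₀).projDeg)) E.Δ = 0) ∧
    ∀ i, σ (φ (E.W i)) * Polynomial.eval (σ (φ ((DQ D₀).e (DQ D₀).projDeg))) E.Δ =
      σ (Polynomial.eval (φ ((DQ D₀).e (DQ D₀).projDeg)) E.Δ) * ψ (E.W i) := by
  classical
  set c := φ ((DQ D₀).e (DQ D₀).projDeg) with hc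
  set n := Multiset.card Qs + 2 * (DQ D₀).genus
  obtain ⟨f, hflev, hf0, E', hfz, hE'⟩ := (DQ D₀).exists_section_avoid Qs (n := n) le_rfl {some φ}
  have hφf : φ f ≠ 0 := fun h0 => by
    have := ((DQ D₀).evSec_eq_zero_iff hf0 hflev (some φ)).mp h0
    rw [hfz, Multiset.mem_add] at this
    exact this.elim hP fun h => hE' _ h (Finset.mem_singleton_self _)
  obtain ⟨p, hp⟩ := (DQ D₀).exists_sub_mem_span_proj c f
  have hnone : none ∉ Qs := by
    exact fun h => (DQ D₀).none_notMem_zeros_proj_sub c (hz ▸ Multiset.mem_cons_of_mem h)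
  have hQ : Qs ≤ (zerosFin f).map some := by
    have h1 : Qs ≤ (DQ D₀).zeros n f := hfz ▸ Multiset.le_add_right _ _
    rw [Multiset.le_iff_count] at h1 ⊢
    intro P
    cases P with
    | none => simp [Multiset.count_eq_zero.mpr hnone]
    | some χ =>
      simpa [CurveBasis.zeros, Multiset.count_add, Multiset.count_replicate] using h1 (some χ)
  have e1 := (DQ D₀).fiber_dual_self E φ Qs f p hz (Or.inr hQ) hp
  have hz' : (DQ D₀).zeros (DQ D₀).projDeg ((DQ D₀).e (DQ D₀).projDeg - algebraMap Qbar _ (ψ ((DQ D₀).e (DQ D₀).projDeg))) =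
      some ψ ::ₘ Qs.map (galPt σ) := by
    rw [zeros_fibre_galPt D₀ σ φ ψ hψ, hz, Multiset.map_cons, hψ]
  have hQ' : Qs.map (galPt σ) ≤ (zerosFin (galFun σ f)).map some := by
    rw [zerosFin_galFun]; exact Multiset.map_le_map hQ
  have hp' : galFun σ f - ∑ j, σ (p j) • (DQ D₀).e ((DQ D₀).apery j) ∈
      Ideal.span {(DQ D₀).e (DQ D₀).projDeg - algebraMap Qbar _ (ψ ((DQ D₀).e (DQ D₀).projDeg))} := by
    obtain ⟨u, hu⟩ := Ideal.mem_span_singleton'.mp hp
    refine Ideal.mem_span_singleton'.mpr ⟨galFun σ u, ?_⟩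
    have hu' := congrArg (galFun σ) hu
    simp only [map_mul, map_sub, map_sum, galFun_smul, galFun_e, galFun_algebraMap] at hu'
    rw [proj_galPt D₀ σ φ ψ hψ]
    exact hu'
  have e2 := (DQ D₀).fiber_dual_self E ψ (Qs.map (galPt σ)) (galFun σ f) (fun j => σ (p j)) hz'
    (Or.inr hQ') hp'
  refine ⟨?_, fun i => ?_⟩
  · by_cases hΔ : Polynomial.eval c E.Δ = 0
    · exact ⟨⟨0, by simp [CurveBasis.projDeg]⟩, Or.inr hΔ⟩
    by_contra hall
    push Not at hall
    have hp0 : ∀ i, p i = 0 := fun i => by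
      have := e1 i
      rw [(hall i).1, zero_mul] at this
      exact (mul_eq_zero.mp this.symm).resolve_left hΔ
    simp only [hp0, zero_smul, Finset.sum_const_zero, sub_zero] at hp
    obtain ⟨u, hu⟩ := Ideal.mem_span_singleton'.mp hp
    refine hφf ?_
    rw [← hu, map_mul, map_sub, φ.commutes, hc]
    simp
  · have h1 := congrArg σ (e1 i)
    rw [map_mul, map_mul] at h1
    have h2 := e2 i
    rw [galPt_some_galFun σ φ ψ hψ, proj_galPt D₀ σ φ ψ hψ] at h2
    refine mul_right_cancel₀ ((map_ne_zero_iff σ σ.injective).mpr hφf) ?_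
    calc σ (φ (E.W i)) * Polynomial.eval (σ c) E.Δ * σ (φ f)
        = σ (φ (E.W i)) * σ (φ f) * Polynomial.eval (σ c) E.Δ := by ring
      _ = σ (Polynomial.eval c E.Δ) * σ (p i) * Polynomial.eval (σ c) E.Δ := by rw [h1]
      _ = σ (Polynomial.eval c E.Δ) * (Polynomial.eval (σ c) E.Δ * σ (p i)) := by ring
      _ = σ (Polynomial.eval c E.Δ) * ψ (E.W i) * σ (φ f) := by rw [← h2]; ring

/-- The trace-dual bound. -/
theorem exists_dual_bound [Nonempty (Fin (DQ D₀).projDeg)] (E : DualData (DQ D₀)) :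
    ∃ C : ℝ, ∀ (φ : Qbar ⊗[ℚ] A₀ →ₐ[Qbar] Qbar) (Qs : Multiset (Pt Qbar (Qbar ⊗[ℚ] A₀))),
      (DQ D₀).zeros (DQ D₀).projDeg ((DQ D₀).e (DQ D₀).projDeg -
        algebraMap Qbar _ (φ ((DQ D₀).e (DQ D₀).projDeg))) = some φ ::ₘ Qs →
      Polynomial.eval (φ ((DQ D₀).e (DQ D₀).projDeg)) E.Δ ≠ 0 → some φ ∉ Qs →
      |((DQ D₀).embDeg : ℝ) * hgt (famVec D₀ E.toBaseFamily (some φ)) -
        (DQ D₀).embDeg * (Qs.map fun Q => hdiag D₀ (some φ) Q).sum +
        (((DQ D₀).projDeg : ℝ) - 1) * hpt D₀ (some φ)| ≤ C := by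
  classical
  obtain ⟨C, hC⟩ := (DQ D₀).locBdd_dual E
  -- the finitely many fibres with a conjugate over a root of `Δ`
  set expr : Pt Qbar (Qbar ⊗[ℚ] A₀) → Multiset (Pt Qbar (Qbar ⊗[ℚ] A₀)) → ℝ := fun P Qs =>
    |((DQ D₀).embDeg : ℝ) * hgt (famVec D₀ E.toBaseFamily P) -
      (DQ D₀).embDeg * (Qs.map fun Q => hdiag D₀ P Q).sum + (((DQ D₀).projDeg : ℝ) - 1) * hpt D₀ P|
  set badC : Finset Qbar :=
    E.Δ.roots.toFinset.biUnion fun r => (finite_orbit_qbar r |> fun _ =>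
      (MulAction.orbit GalQ r).toFinite.toFinset)
  set bad : ℝ := ∑ c ∈ badC,
    ∑ P ∈ ((DQ D₀).zeros (DQ D₀).projDeg ((DQ D₀).e (DQ D₀).projDeg - algebraMap Qbar _ c)).toFinset,
      expr P (((DQ D₀).zeros (DQ D₀).projDeg ((DQ D₀).e (DQ D₀).projDeg - algebraMap Qbar _ c)).erase P)
  have hbad : 0 ≤ bad :=
    Finset.sum_nonneg fun _ _ => Finset.sum_nonneg fun _ _ => abs_nonneg _
  refine ⟨bdTotal C + bad, fun φ Qs hz hΔ hP => ?_⟩
  set c := φ ((DQ D₀).e (DQ D₀).projDeg) with hc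
  by_cases hb : c ∈ badC
  · have h1 : expr (some φ) Qs ≤ bad := by
      refine le_trans ?_ (Finset.single_le_sum
        (f := fun c => ∑ P ∈ ((DQ D₀).zeros (DQ D₀).projDeg ((DQ D₀).e (DQ D₀).projDeg - algebraMap Qbar _ c)).toFinset,
          expr P (((DQ D₀).zeros (DQ D₀).projDeg ((DQ D₀).e (DQ D₀).projDeg - algebraMap Qbar _ c)).erase P))
        (fun _ _ => Finset.sum_nonneg fun _ _ => abs_nonneg _) hb)
      refine le_trans (le_of_eq ?_) (Finset.single_le_sum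
        (f := fun P => expr P (((DQ D₀).zeros (DQ D₀).projDeg ((DQ D₀).e (DQ D₀).projDeg - algebraMap Qbar _ c)).erase P))
        (fun _ _ => abs_nonneg _) (a := some φ)
        (Multiset.mem_toFinset.mpr (hz ▸ Multiset.mem_cons_self _ _)))
      exact congrArg (expr (some φ))
        (((congrArg (fun m => Multiset.erase m (some φ)) hz)).trans (Multiset.erase_cons_head _ _)).symm
    exact h1.trans (le_add_of_nonneg_left (bdTotal_nonneg C))
  have hconj : ∀ σ : GalQ, Polynomial.eval (σ c) E.Δ ≠ 0 := fun σ h0 => hb <| by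
    refine Finset.mem_biUnion.mpr ⟨σ c,
      Multiset.mem_toFinset.mpr ((Polynomial.mem_roots E.Δ_ne_zero).mpr h0), ?_⟩
    rw [Set.Finite.mem_toFinset]
    exact ⟨σ⁻¹, inv_smul_smul σ c⟩
  refine le_trans ?_ (le_add_of_nonneg_right hbad)
  set w := famVec D₀ E.toBaseFamily (some φ) with hw
  have hQsA : ∀ Q ∈ Qs, IsAdelic (logDist D₀ (some φ) Q) := fun Q _ => isAdelic_logDist D₀ _ _
  have hF : IsAdelic fun v => ((DQ D₀).embDeg : ℝ) * locLog w v +
      ((DQ D₀).embDeg : ℝ) * (Qs.map fun Q => logDist D₀ (some φ) Q v).sum +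
      (((DQ D₀).projDeg : ℝ) - 1) * locLog ((DQ D₀).coord (some φ)) v -
      ((DQ D₀).embDeg : ℝ) * logAbs (Polynomial.eval c E.Δ) v :=
    ((((isAdelic_locLog _).const_mul _).add ((IsAdelic.multiset_sum Qs _ hQsA).const_mul _)).add
      ((isAdelic_locLog _).const_mul _)).sub ((isAdelic_logAbs _).const_mul _)
  have h := abs_gmean_le_bdTotal hF C fun p σ => by
    obtain ⟨ψ, hψ⟩ := exists_galPt_eq_some σ φ
    obtain ⟨⟨i₀, hi₀⟩, hdual⟩ := dual_value_galois D₀ E φ ψ Qs σ hψ hz hP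
    have hi₀ := hi₀.resolve_right hΔ
    have hz' : (DQ D₀).zeros (DQ D₀).projDeg ((DQ D₀).e (DQ D₀).projDeg - algebraMap Qbar _ (ψ ((DQ D₀).e (DQ D₀).projDeg))) =
        some ψ ::ₘ Qs.map (galPt σ) := by
      rw [zeros_fibre_galPt D₀ σ φ ψ hψ, hz, Multiset.map_cons, hψ]
    have h1 := hC p ⟨(ψ, Qs.map (galPt σ)), hz',
      by rw [proj_galPt D₀ σ φ ψ hψ]; exact hconj σ⟩
    have hvec : σ • w = (σ (Polynomial.eval c E.Δ) / Polynomial.eval (σ c) E.Δ) •
        (fun i => ψ (E.W i)) := by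
      funext i
      change σ (φ (E.W i)) = _
      rw [Pi.smul_apply, smul_eq_mul, div_mul_eq_mul_div, eq_div_iff (hconj σ)]
      exact hdual i
    have hw0 : (fun i => ψ (E.W i)) ≠ 0 := fun h0 => by
      have := hdual i₀
      rw [show ψ (E.W i₀) = 0 from congrFun h0 i₀, mul_zero] at this
      exact hi₀ ((map_eq_zero_iff σ σ.injective).mp
        ((mul_eq_zero.mp this).resolve_right (hconj σ)))
    have hlam : σ (Polynomial.eval c E.Δ) ≠ 0 := (map_ne_zero_iff σ σ.injective).mpr hΔ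
    have hloc : locLog w (p, σ) = logAbs (Polynomial.eval c E.Δ) (p, σ) -
        Real.log (pabs p (Polynomial.eval (σ c) E.Δ)) +
        Real.log (supMag (pabs p) fun i => ψ (E.W i)) := by
      rw [← locLog_smul_galois, hvec, supMag_smul_const, Real.log_mul
        ((pabs p).ne_zero (div_ne_zero hlam (hconj σ))) (Mean.supMag_pos _ hw0).ne', map_div₀,
        Real.log_div ((pabs p).ne_zero hlam) ((pabs p).ne_zero (hconj σ)), logAbs_apply]
    simp only [proj_galPt D₀ σ φ ψ hψ, Multiset.map_map] at h1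
    rw [← hψ, log_supMag_coord, Multiset.map_congr rfl fun Q hQ => show
      ((fun Q => Real.log ((DQ D₀).dst (pabs p) (galPt σ (some φ)) Q)) ∘ galPt σ) Q =
        logDist D₀ (some φ) Q (p, σ) from
      log_dst_galPt D₀ (P := some φ) (Q := Q) (fun h => hP (h ▸ hQ)) p σ] at h1
    refine le_trans (le_of_eq ?_) h1
    rw [hloc]
    exact congrArg abs (by rw [hc]; ring)
  rw [gmean_sub ((((isAdelic_locLog _).const_mul _).add
      ((IsAdelic.multiset_sum Qs _ hQsA).const_mul _)).add ((isAdelic_locLog _).const_mul _))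
      ((isAdelic_logAbs _).const_mul _),
    gmean_add (((isAdelic_locLog _).const_mul _).add
      ((IsAdelic.multiset_sum Qs _ hQsA).const_mul _)) ((isAdelic_locLog _).const_mul _),
    gmean_add ((isAdelic_locLog _).const_mul _) ((IsAdelic.multiset_sum Qs _ hQsA).const_mul _),
    gmean_const_mul (isAdelic_locLog _), gmean_const_mul (IsAdelic.multiset_sum Qs _ hQsA),
    gmean_const_mul (isAdelic_locLog _), gmean_const_mul (isAdelic_logAbs _),
    product_formula hΔ, ← hgt_eq_gmean, ← hgt_eq_gmean, gmean_multiset_sum Qs _ hQsA] at h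
  simp only [gmean_logDist, Multiset.sum_map_neg] at h
  refine le_trans (le_of_eq ?_) h
  exact congrArg abs (by rw [hpt]; ring)

/-- The global height data. -/
def heightData : HeightData (DQ D₀) where
  hO P := hpt D₀ P / (DQ D₀).embDeg
  H := hdiag D₀
  hF F P := hgt (famVec D₀ F P)
  hO_none := by rw [hpt_none, zero_div]
  hO_nonneg P := div_nonneg (hgt_nonneg _) (embDeg_pos D₀).le
  H_symm := hdiag_symm D₀
  H_lower := ⟨Real.log 2, fun P Q h => neg_log_two_le_hdiag D₀ h⟩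
  H_none := by
    obtain ⟨C, hC⟩ := exists_hdiag_none D₀
    refine ⟨C / (DQ D₀).embDeg, fun P hP => ?_⟩
    have ha := embDeg_pos D₀
    rw [le_div_iff₀ ha]
    refine le_trans (le_of_eq ?_) (hC P hP)
    refine ((congrArg (|_| * ·) (abs_of_pos ha).symm).trans (abs_mul _ _).symm).trans
      (congrArg abs ?_)
    rw [sub_mul, div_mul_cancel₀ _ ha.ne']
    ring
  H_zeros := exists_sum_zeros D₀
  hO_fibre := by
    obtain ⟨C, hC⟩ := exists_hpt_proj D₀
    have hm : (0 : ℝ) < (DQ D₀).projDeg := by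
      simp only [CurveBasis.projDeg]; positivity
    have ha := embDeg_pos D₀
    refine ⟨2 * C / ((DQ D₀).projDeg * (DQ D₀).embDeg), fun φ ψ h => ?_⟩
    have h1 := abs_le.mp (hC φ)
    have h2 := abs_le.mp (hC ψ)
    rw [h] at h1
    rw [← sub_div, abs_div, abs_of_pos ha, div_le_div_iff₀ ha (mul_pos hm ha)]
    have h3 : |hpt D₀ (some φ) - hpt D₀ (some ψ)| * (DQ D₀).projDeg ≤ 2 * C := by
      rw [← abs_of_pos hm, ← abs_mul, abs_le]
      constructor <;> linarith [h1.1, h1.2, h2.1, h2.2]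
    calc |hpt D₀ (some φ) - hpt D₀ (some ψ)| * (((DQ D₀).projDeg : ℝ) * (DQ D₀).embDeg)
        = |hpt D₀ (some φ) - hpt D₀ (some ψ)| * (DQ D₀).projDeg * (DQ D₀).embDeg := by ring
      _ ≤ 2 * C * (DQ D₀).embDeg := mul_le_mul_of_nonneg_right h3 ha.le
  hF_family F := by
    obtain ⟨C, hC⟩ := exists_hgt_famVec D₀ F
    refine ⟨C, fun P hP => le_trans (le_of_eq ?_) (hC P hP)⟩
    refine congrArg abs ?_
    rw [mul_assoc, mul_div_cancel₀ _ (embDeg_pos D₀).ne']
  hF_dual E := by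
    obtain ⟨C, hC⟩ := exists_dual_bound D₀ E
    have ha := embDeg_pos D₀
    refine ⟨C / (DQ D₀).embDeg, fun φ Qs hz hΔ hQ _ => ?_⟩
    rw [le_div_iff₀ ha]
    refine le_trans (le_of_eq ?_) (hC φ Qs hz hΔ hQ)
    refine ((congrArg (|_| * ·) (abs_of_pos ha).symm).trans (abs_mul _ _).symm).trans
      (congrArg abs ?_)
    field_simp
    ring
  hF_det F := by
    obtain ⟨C, hC⟩ := exists_det_bound D₀ F
    exact ⟨C, fun P _ hinj hdet => hC P hinj hdet⟩

end Fermat.Agent.MW.Global
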