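import Fermat.Agent.MW.Form.Positivity
import Fermat.Agent.MW.Form.Global
import Mathlib.GroupTheory.Descent

/-!
# Descent: finite generation of the group of invariant classes

The quadratic form of the height data satisfies the parallelogram law up to a constant, is
bounded below and has finitely many invariant classes below every bound.
-/

set_option autoImplicit false

noncomputable section

open scoped TensorProduct

namespace Fermat.Agent.MW

namespace Global

variable {A₀ : Type} [CommRing A₀] [Algebra ℚ A₀] (D₀ : CurveBasis ℚ A₀)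
  [IsDedekindDomain (Qbar ⊗[ℚ] A₀)]

include D₀ in
/-- The classes form an orbit-finite Galois module. -/
theorem finite_orbit_class (c : Additive (ClassGroup (Qbar ⊗[ℚ] A₀))) :
    (MulAction.orbit GalQ c).Finite := by
  obtain ⟨E, rfl⟩ := (DQ D₀).exists_cl_eq c
  induction E using Multiset.induction with
  | empty =>
    refine (Set.finite_singleton 0).subset ?_
    rintro _ ⟨σ, rfl⟩
    simp [cl]
  | cons P E ih =>
    refine Set.Finite.subset (((finite_orbit_pt D₀ P).image pcl).image2 (· + ·) ih) ?_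
    rintro _ ⟨σ, rfl⟩
    have h : cl (P ::ₘ E) = pcl P + cl E := by simp [cl]
    refine ⟨pcl (galPt σ P), ⟨galPt σ P, MulAction.mem_orbit P σ, rfl⟩, σ • cl E,
      MulAction.mem_orbit _ σ, ?_⟩
    show pcl (galPt σ P) + σ • cl E = σ • cl (P ::ₘ E)
    rw [h, smul_add, smul_pcl]

/-- The points of a good divisor whose class is invariant up to a translation have orbits bounded
by the orbit of the translation. -/
theorem card_orbit_le_of_good (x c : Additive (ClassGroup (Qbar ⊗[ℚ] A₀)))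
    (hx : ∀ σ : GalQ, σ • x = x) (E : Multiset (Pt Qbar (Qbar ⊗[ℚ] A₀)))
    (hE : (DQ D₀).Good E) (hcl : cl E = x + c) {P : Pt Qbar (Qbar ⊗[ℚ] A₀)} (hP : P ∈ E) :
    Nat.card (MulAction.orbit GalQ P) ≤ Nat.card (MulAction.orbit GalQ c) * (DQ D₀).genus := by
  classical
  obtain ⟨-, hcard, -, huniq⟩ := hE
  choose rep hrep using fun d : MulAction.orbit GalQ c => d.2
  have : Finite (MulAction.orbit GalQ c) := (finite_orbit_class D₀ c).to_subtype
  have hfix : ∀ τ : GalQ, τ • c = c → ∀ Q ∈ E, galPt τ Q ∈ E := fun τ hτ Q hQ => by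
    have h1 : E.map (galPt τ) = E := by
      refine huniq _ (by rw [Multiset.card_map, hcard]) ?_
      rw [← smul_cl, hcl, smul_add, hx, hτ]
    rw [← h1]
    exact Multiset.mem_map_of_mem _ hQ
  have hsub : MulAction.orbit GalQ P ⊆
      Set.range fun q : MulAction.orbit GalQ c × E.toFinset => rep q.1 • (q.2 : Pt Qbar (Qbar ⊗[ℚ] A₀)) := by
    rintro _ ⟨σ, rfl⟩
    set d : MulAction.orbit GalQ c := ⟨σ • c, MulAction.mem_orbit c σ⟩
    refine ⟨(d, ⟨((rep d)⁻¹ * σ) • P, Multiset.mem_toFinset.mpr (hfix _ ?_ P hP)⟩), ?_⟩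
    · rw [mul_smul, inv_smul_eq_iff]
      exact (hrep d).symm
    · show rep d • (((rep d)⁻¹ * σ) • P) = σ • P
      rw [← mul_smul, mul_inv_cancel_left]
  refine (Nat.card_mono (Set.finite_range _) hsub).trans ((Finite.card_range_le _).trans ?_)
  rw [Nat.card_prod, Nat.card_eq_fintype_card (α := E.toFinset), Fintype.card_coe]
  exact Nat.mul_le_mul_left _ ((Multiset.toFinset_card_le E).trans hcard.le)

/-- Finitely many points have bounded height and bounded orbit. -/
theorem finite_points (N : ℕ) (B : ℝ) :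
    {P : Pt Qbar (Qbar ⊗[ℚ] A₀) |
      Nat.card (MulAction.orbit GalQ P) ≤ N ∧ hpt D₀ P ≤ B}.Finite := by
  classical
  obtain ⟨C, hC⟩ := exists_hpt_proj D₀
  have ha := embDeg_pos D₀
  set m := (DQ D₀).projDeg
  set Y := {y : Qbar | Nat.card (MulAction.orbit GalQ y) ≤ N ∧
    hgt ![1, y] ≤ ((m : ℝ) * B + C) / (DQ D₀).embDeg}
  have hY : Y.Finite := finite_hgt_le _ _
  refine ((Set.finite_singleton none).union (hY.biUnion fun c _ =>
    ((DQ D₀).zeros m ((DQ D₀).e m - algebraMap Qbar _ c)).toFinset.finite_toSet)).subset ?_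
  rintro (_ | φ) ⟨h1, h2⟩
  · exact Or.inl rfl
  refine Or.inr ?_
  set y := φ ((DQ D₀).e m) with hy
  have hyY : y ∈ Y := by
    refine ⟨le_trans ?_ h1, ?_⟩
    · have hfin := (finite_orbit_pt D₀ (some φ))
      have : Finite (MulAction.orbit GalQ (some φ : Pt Qbar (Qbar ⊗[ℚ] A₀))) := hfin.to_subtype
      set f : Pt Qbar (Qbar ⊗[ℚ] A₀) → Qbar := fun P => P.elim 0 fun ψ => ψ ((DQ D₀).e m)
      have hsub : MulAction.orbit GalQ y ⊆
          f '' MulAction.orbit GalQ (some φ : Pt Qbar (Qbar ⊗[ℚ] A₀)) := by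
        rintro _ ⟨σ, rfl⟩
        obtain ⟨ψ, hψ⟩ := exists_galPt_eq_some σ φ
        refine ⟨some ψ, ⟨σ, hψ⟩, ?_⟩
        exact proj_galPt D₀ σ φ ψ hψ m
      exact (Nat.card_mono (hfin.image f) hsub).trans (Nat.card_image_le hfin)
    · rw [le_div_iff₀ ha]
      have := (abs_le.mp (hC φ)).1
      have := mul_le_mul_of_nonneg_left h2 (Nat.cast_nonneg (α := ℝ) m)
      linarith
  refine Set.mem_biUnion hyY ?_
  rw [Finset.mem_coe, Multiset.mem_toFinset, HeightData.mem_fibre_iff]

end Global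

/-- Descent: invariant classes form a finitely generated group. -/
theorem fg_fixed_of_translates {A₀ : Type} [CommRing A₀] [Algebra ℚ A₀] (D₀ : CurveBasis ℚ A₀)
    [IsDedekindDomain (Qbar ⊗[ℚ] A₀)]
    (htr : ∃ S : Finset (Additive (ClassGroup (Qbar ⊗[ℚ] A₀))), ∀ x, ∃ c ∈ S,
      (∃ E, (D₀.baseChange Qbar).Good E ∧ cl E = x + c) ∧
      (∃ E, (D₀.baseChange Qbar).Good E ∧ cl E = x - c))
    (h2 : Finite (FixedPoints.addSubgroup GalQ (Additive (ClassGroup (Qbar ⊗[ℚ] A₀))) ⧸
      (nsmulAddMonoidHom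
        (α := FixedPoints.addSubgroup GalQ (Additive (ClassGroup (Qbar ⊗[ℚ] A₀)))) 2).range)) :
    AddGroup.FG (FixedPoints.addSubgroup GalQ (Additive (ClassGroup (Qbar ⊗[ℚ] A₀)))) := by
  classical
  set h := Global.heightData D₀
  obtain ⟨S, hS⟩ := htr
  obtain ⟨Cp, hCp, hpar⟩ := h.exists_parallelogram
  obtain ⟨Cg, hCg, hgood⟩ := h.exists_q_good
    fun E φ Qs hz hΔ => (Global.DQ D₀).notMem_fibre_of_eval_ne_zero E φ Qs hz hΔ
  set Q := ∑ c ∈ S, |h.q c| with hQ
  have hQc : ∀ c ∈ S, |h.q c| ≤ Q := fun c hc =>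
    Finset.single_le_sum (f := fun c => |h.q c|) (fun _ _ => abs_nonneg _) hc
  have hq_good : ∀ E, (Global.DQ D₀).Good E → -Cg ≤ h.q (cl E) := fun E hE => by
    have := hgood E hE
    have h0 : 0 ≤ (E.map h.hO).sum := Multiset.sum_nonneg fun r hr => by
      obtain ⟨P, -, rfl⟩ := Multiset.mem_map.mp hr
      exact h.hO_nonneg P
    linarith
  -- lower bound
  have hlow : ∀ x, 0 ≤ h.q x + (Cg + Q + Cp) := fun x => by
    obtain ⟨c, hc, ⟨E, hE, hEc⟩, ⟨F, hF, hFc⟩⟩ := hS x
    have h1 := (abs_le.mp (hpar x c)).2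
    have h2 := hq_good E hE
    have h3 := hq_good F hF
    rw [hEc] at h2
    rw [hFc] at h3
    have := abs_le.mp (hQc c hc)
    linarith [this.2]
  set M := Cg + Q + Cp with hM
  let G := FixedPoints.addSubgroup GalQ (Additive (ClassGroup (Qbar ⊗[ℚ] A₀)))
  have hfin : Northcott fun x : G => h.q x + M := by
    refine ⟨fun b => ?_⟩
    set B := b - M
    set N := (∑ c ∈ S, Nat.card (MulAction.orbit GalQ c)) * (Global.DQ D₀).genus
    set T := 2 * |B| + 2 * Q + Cp + 2 * Cg
    have hT := Global.finite_points D₀ N ((Global.DQ D₀).embDeg * T)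
    set Es : Finset (Multiset (Pt Qbar (Qbar ⊗[ℚ] A₀))) := hT.toFinset.powerset.image Finset.val
    refine Set.Finite.of_finite_image (f := Subtype.val) ?_ Subtype.val_injective.injOn
    refine (Finset.finite_toSet ((Es ×ˢ S).image fun p => cl p.1 - p.2)).subset ?_
    rintro _ ⟨x, hx, rfl⟩
    have hxB : h.q (x : Additive (ClassGroup (Qbar ⊗[ℚ] A₀))) ≤ B := le_sub_iff_add_le.mpr hx
    obtain ⟨c, hc, ⟨E, hE, hEc⟩, ⟨F, hF, hFc⟩⟩ := hS x
    have hEnd : E.Nodup := hE.1
    rw [Finset.mem_coe, Finset.mem_image]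
    refine ⟨(E, c), Finset.mem_product.mpr ⟨?_, hc⟩, show cl E - c = _ by rw [hEc]; abel⟩
    refine Finset.mem_image.mpr ⟨⟨E, hEnd⟩, Finset.mem_powerset.mpr fun P hP => ?_, rfl⟩
    have hPE : P ∈ E := hP
    rw [Set.Finite.mem_toFinset]
    refine ⟨?_, ?_⟩
    · refine (Global.card_orbit_le_of_good D₀ x c x.2 E hE hEc hPE).trans ?_
      exact Nat.mul_le_mul_right _
        (Finset.single_le_sum (f := fun c => Nat.card (MulAction.orbit GalQ c))
          (fun _ _ => Nat.zero_le _) hc)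
    · have h1 := (abs_le.mp (hpar x c)).2
      have h3 := hq_good F hF
      rw [hFc] at h3
      have h4 := hgood E hE
      rw [hEc] at h4
      have h5 := abs_le.mp (hQc c hc)
      have h6 : h.hO P ≤ (E.map h.hO).sum := by
        obtain ⟨E', rfl⟩ := Multiset.exists_cons_of_mem hPE
        rw [Multiset.map_cons, Multiset.sum_cons]
        refine le_add_of_nonneg_right (Multiset.sum_nonneg fun r hr => ?_)
        obtain ⟨P', -, rfl⟩ := Multiset.mem_map.mp hr
        exact h.hO_nonneg P'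
      have h7 : h.hO P ≤ T := by
        have := le_abs_self B
        linarith [h5.2]
      have ha := Global.embDeg_pos D₀
      have h8 : h.hO P = Global.hpt D₀ P / (Global.DQ D₀).embDeg := rfl
      rw [h8, div_le_iff₀ ha] at h7
      linarith
  have : Finite (G ⧸ (nsmulAddMonoidHom (α := G) 2).range) := h2
  exact AddCommGroup.fg_of_descent' (G := G) (h := fun x : G => h.q x + M) (C := Cp + 2 * M)
    AddSubgroup.finiteIndex_of_finite_quotient (fun x => hlow x) fun x y => by
    have h1 := abs_le.mp (hpar (x : Additive (ClassGroup (Qbar ⊗[ℚ] A₀))) y)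
    have hM0 : 0 ≤ M := add_nonneg (add_nonneg hCg
      (Finset.sum_nonneg fun _ _ => abs_nonneg _)) hCp
    rw [abs_le]
    push_cast
    constructor <;> linarith [h1.1, h1.2]

end Fermat.Agent.MW
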