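import Fermat.Agent.MW.Height.Main

/-!
# Auxiliary facts on adelic means

Sums over multisets, totals of place-wise bounds and the mean of wedge products.
-/

set_option autoImplicit false

noncomputable section

namespace Fermat.Agent.MW.Mean

/-- A sum over a multiset of adelic functions is adelic. -/
theorem IsAdelic.multiset_sum {α : Type*} (s : Multiset α) (F : α → Idx → ℝ)
    (hF : ∀ a ∈ s, IsAdelic (F a)) : IsAdelic fun v => (s.map fun a => F a v).sum := by
  induction s using Multiset.induction with
  | empty => simpa using IsAdelic.zero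
  | cons a s ih =>
    simp only [Multiset.map_cons, Multiset.sum_cons]
    exact (hF a (Multiset.mem_cons_self a s)).add
      (ih fun b hb => hF b (Multiset.mem_cons_of_mem hb))

/-- The adelic mean commutes with sums over multisets. -/
theorem gmean_multiset_sum {α : Type*} (s : Multiset α) (F : α → Idx → ℝ)
    (hF : ∀ a ∈ s, IsAdelic (F a)) :
    gmean (fun v => (s.map fun a => F a v).sum) = (s.map fun a => gmean (F a)).sum := by
  induction s using Multiset.induction with
  | empty => simpa using gmean_zero
  | cons a s ih =>
    simp only [Multiset.map_cons, Multiset.sum_cons]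
    rw [gmean_add (hF a (Multiset.mem_cons_self a s))
      (IsAdelic.multiset_sum s F fun b hb => hF b (Multiset.mem_cons_of_mem hb)),
      ih fun b hb => hF b (Multiset.mem_cons_of_mem hb)]

/-- The total of a place-wise bound. -/
def bdTotal (C : Place →₀ ℝ) : ℝ := C.sum fun _ c => max c 0

/-- The total of a bound is nonnegative. -/
theorem bdTotal_nonneg (C : Place →₀ ℝ) : 0 ≤ bdTotal C :=
  Finset.sum_nonneg fun _ _ => le_max_right _ _

/-- A place-wise upper bound bounds the adelic mean by its total. -/
theorem gmean_le_bdTotal {F : Idx → ℝ} (hF : IsAdelic F) (C : Place →₀ ℝ)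
    (hC : ∀ p σ, F (p, σ) ≤ C p) : gmean F ≤ bdTotal C := by
  classical
  set T := hF.finite_bad.toFinset ∪ C.support
  rw [gmean_eq_sum hF T fun p hp σ => by
    by_contra h
    exact hp (Finset.mem_union_left _ (hF.finite_bad.mem_toFinset.2 ⟨σ, h⟩))]
  rw [bdTotal, Finsupp.sum_of_support_subset C (s := T) Finset.subset_union_right
    (fun _ c => max c 0) fun _ _ => by simp]
  refine Finset.sum_le_sum fun p _ => le_trans ?_ (le_max_left _ _)
  exact (avg_mono (hF.isLC p) (isLC_const _) (hC p)).trans (avg_const _).le

/-- A place-wise absolute bound bounds the absolute value of the adelic mean by its total. -/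
theorem abs_gmean_le_bdTotal {F : Idx → ℝ} (hF : IsAdelic F) (C : Place →₀ ℝ)
    (hC : ∀ p σ, |F (p, σ)| ≤ C p) : |gmean F| ≤ bdTotal C := by
  rw [abs_le]
  constructor
  · have h := gmean_le_bdTotal (hF.const_mul (-1)) C fun p σ => by
      have := (abs_le.mp (hC p σ)).1
      linarith
    rw [gmean_const_mul hF] at h
    linarith
  · exact gmean_le_bdTotal hF C fun p σ => (abs_le.mp (hC p σ)).2

/-- The local term of a height, written at a conjugate vector. -/
theorem locLog_smul_galois {ι : Type*} [Fintype ι] [Nonempty ι] (x : ι → Qbar) (p : Place)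
    (σ : GalQ) : Real.log (supMag (pabs p) (σ • x)) = locLog x (p, σ) := rfl

/-- The logarithm of an absolute value, written at a conjugate number. -/
theorem logAbs_apply (y : Qbar) (p : Place) (σ : GalQ) :
    Real.log (pabs p (σ y)) = logAbs y (p, σ) := rfl

/-- The local height of a vector with entries `0` and `1`, one of them `1`, vanishes. -/
theorem locLog_eq_zero_of_zero_one {ι : Type*} [Fintype ι] [Nonempty ι] (x : ι → Qbar)
    (h : ∀ i, x i = 0 ∨ x i = 1) (i₀ : ι) (h₀ : x i₀ = 1) (v : Idx) : locLog x v = 0 := by
  have : supMag (absv v) x = 1 := by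
    refine le_antisymm (supMag_le fun i => ?_) ?_
    · rcases h i with hi | hi <;> simp [hi]
    · simpa [h₀] using le_supMag (absv v) x i₀
  rw [locLog, this, Real.log_one]

/-- Galois conjugation commutes with the exterior product. -/
theorem smul_wedge {ι : Type*} (σ : GalQ) (x y : ι → Qbar) :
    σ • wedge x y = wedge (σ • x) (σ • y) := by
  funext i
  change σ _ = _
  simp [wedge]

/-- The exterior product is bounded by the product of the sizes, up to the triangle constant. -/
theorem supMag_wedge_le {ι : Type*} [Fintype ι] [Nonempty ι] (v : Idx) (x y : ι → Qbar) :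
    supMag (absv v) (wedge x y) ≤ triangleConst v * (supMag (absv v) x * supMag (absv v) y) := by
  refine supMag_le fun i => (absv_sub_le v _ _).trans ?_
  refine mul_le_mul_of_nonneg_left ?_ (zero_le_one.trans (one_le_triangleConst v))
  rw [map_mul, map_mul]
  exact max_le (mul_le_mul (le_supMag _ _ _) (le_supMag _ _ _) (AbsoluteValue.nonneg _ _)
      (supMag_nonneg _ _))
    (mul_le_mul (le_supMag _ _ _) (le_supMag _ _ _) (AbsoluteValue.nonneg _ _)
      (supMag_nonneg _ _))

end Fermat.Agent.MW.Mean
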