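import Fermat.Agent.MW.Form.HeightData
import Fermat.Agent.MW.Core.API

/-!
# The height pairing on divisor classes

The pairing built from the diagonal height depends, up to a bounded error, only on the classes; it
gives the quadratic form `q` and its parallelogram law.
-/

set_option autoImplicit false

noncomputable section

open Multiset

namespace Fermat.Agent.MW.HeightData

variable {K A : Type} [Field K] [CommRing A] [Algebra K A] [IsDedekindDomain A]
  {D : CurveBasis K A} (h : HeightData D)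

/-- The pairing of two distinct points. -/
def B (P Q : Pt K A) : ℝ := h.hO P + h.hO Q - h.H P Q

/-- The pairing of two divisors. -/
def BB (E F : Multiset (Pt K A)) : ℝ := (E.map fun P => (F.map (h.B P)).sum).sum

/-- The pairing of points is symmetric. -/
theorem B_symm (P Q : Pt K A) : h.B P Q = h.B Q P := by rw [B, B, h.H_symm P Q]; ring

theorem BB_symm (E F : Multiset (Pt K A)) : h.BB E F = h.BB F E := by
  unfold BB
  rw [Multiset.sum_map_sum_map]
  simp only [h.B_symm]

theorem BB_add_left (E E' F : Multiset (Pt K A)) : h.BB (E + E') F = h.BB E F + h.BB E' F := by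
  simp [BB]

/-- The pairing of a point with a divisor. -/
theorem BB_singleton_left (P : Pt K A) (F : Multiset (Pt K A)) :
    h.BB {P} F = (F.map (h.B P)).sum := by simp [BB]

/-- The pairing of single points recovers `B`. -/
theorem BB_singleton (P Q : Pt K A) : h.BB {P} {Q} = h.B P Q := by simp [BB]

/-- The pairing of distinct points is bounded above by their heights up to a constant. -/
theorem B_le : ∃ C : ℝ, 0 ≤ C ∧ ∀ P Q, P ≠ Q → h.B P Q ≤ h.hO P + h.hO Q + C := by
  obtain ⟨C, hC⟩ := h.H_lower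
  refine ⟨max C 0, le_max_right _ _, fun P Q hPQ => ?_⟩
  have := hC P Q hPQ
  have := le_max_left C 0
  rw [B]; linarith

theorem abs_B_none : ∃ C : ℝ, 0 ≤ C ∧ ∀ P, P ≠ none → |h.B P none| ≤ C := by
  obtain ⟨C, hC⟩ := h.H_none
  refine ⟨max C 0, le_max_right _ _, fun P hP => ?_⟩
  refine le_trans ?_ ((hC P hP).trans (le_max_left C 0))
  rw [B, h.hO_none, ← abs_neg]
  exact (congrArg abs (by ring)).le

/-- Degree bound for divisors entering the pairing. -/
abbrev bd (D : CurveBasis K A) : ℕ := 4 * D.genus + 4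

variable [IsAlgClosed K]

/-- The pairing with a point depends only on the class. -/
theorem exists_point_congr : ∃ C : ℝ, 0 ≤ C ∧ ∀ (P : Pt K A) (E E' : Multiset (Pt K A)),
    card E ≤ 2 * bd D → card E' ≤ 2 * bd D → P ∉ E → P ∉ E' → cl E = cl E' →
    |(E.map (h.B P)).sum - (E'.map (h.B P)).sum| ≤ C := by
  obtain ⟨C₀, hC₀, hnone⟩ := h.abs_B_none
  obtain ⟨C₁, hC₁⟩ := h.H_zeros
  refine ⟨2 * max C₁ 0 + 4 * (2 * bd D : ℕ) * C₀, by positivity, fun P E E' hE hE' hPE hPE' hcl => ?_⟩
  set n := 2 * bd D with hn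
  have hpad : ∀ (F : Multiset (Pt K A)), card F ≤ n → P ∉ F →
      |(F.map (h.B P)).sum| ≤ card F * C₀ ∨ P ≠ none := by
    intro F _ hPF
    by_cases hP : P = none
    · subst hP
      refine Or.inl ?_
      have hb : ∀ x ∈ F.map (h.B none), |x| ≤ C₀ := by
        intro x hx
        obtain ⟨Q, hQ, rfl⟩ := Multiset.mem_map.mp hx
        rw [h.B_symm]
        exact hnone Q fun hc => hPF (hc ▸ hQ)
      refine (Multiset.abs_sum_le_sum_abs).trans ?_
      refine (Multiset.sum_le_card_nsmul _ C₀ fun x hx => ?_).trans (le_of_eq (by simp))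
      obtain ⟨y, hy, rfl⟩ := Multiset.mem_map.mp hx
      exact hb y hy
    · exact Or.inr hP
  by_cases hP : P = none
  · have h1 : |(E.map (h.B P)).sum| ≤ n * C₀ := by
      rcases hpad E hE hPE with h | h
      · exact h.trans (by gcongr)
      · exact absurd hP h
    have h2 : |(E'.map (h.B P)).sum| ≤ n * C₀ := by
      rcases hpad E' hE' hPE' with h | h
      · exact h.trans (by gcongr)
      · exact absurd hP h
    have := abs_sub (E.map (h.B P)).sum (E'.map (h.B P)).sum
    have := le_max_right C₁ 0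
    have : 0 ≤ (n : ℝ) * C₀ := by positivity
    linarith
  -- complete both divisors to zero divisors of sections of degree `embDeg`
  obtain ⟨R, hRc, hRcl, hR⟩ := D.exists_rep_avoid (-cl E) (d := D.embDeg - n)
    (by simp only [hn, bd, CurveBasis.embDeg]; omega) {P}
  have hPR : P ∉ R := fun hc => hR P hc (Finset.mem_singleton_self P)
  have key : ∀ F : Multiset (Pt K A), card F ≤ n → P ∉ F → cl F = cl E →
      |(F.map (h.B P)).sum + (R.map (h.B P)).sum| ≤ max C₁ 0 + n * C₀ := by
    intro F hF hPF hFcl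
    set Z := F + Multiset.replicate (n - card F) none + R with hZ
    have hcard : card Z = D.embDeg := by
      simp only [hZ, card_add, card_replicate, hRc]
      simp only [hn, bd, CurveBasis.embDeg] at *
      omega
    have hZcl : cl Z = 0 := by
      rw [hZ]
      simp only [cl, Multiset.map_add, Multiset.sum_add, Multiset.map_replicate, pcl,
        Multiset.sum_replicate, nsmul_zero, add_zero] at *
      rw [hFcl, hRcl, add_neg_cancel]
    obtain ⟨t, ht0, htlev, htz⟩ := D.exists_zeros_eq Z hZcl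
    rw [hcard] at htlev htz
    have hPZ : P ∉ Z := by
      simp only [hZ, Multiset.mem_add, Multiset.mem_replicate]
      rintro ((hc | ⟨-, hc⟩) | hc)
      · exact hPF hc
      · exact hP hc
      · exact hPR hc
    have h1 := hC₁ P t ht0 htlev (by rw [htz]; exact hPZ)
    rw [htz] at h1
    change |(Z.map (h.B P)).sum| ≤ C₁ at h1
    rw [hZ, Multiset.map_add, Multiset.map_add, Multiset.sum_add, Multiset.sum_add,
      Multiset.map_replicate, Multiset.sum_replicate, nsmul_eq_mul] at h1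
    have h2 : |((n - card F : ℕ) : ℝ) * h.B P none| ≤ n * C₀ := by
      rw [abs_mul, Nat.abs_cast]
      exact mul_le_mul (Nat.cast_le.mpr (Nat.sub_le _ _)) (hnone P hP) (abs_nonneg _)
        (Nat.cast_nonneg _)
    have h3 := abs_sub ((F.map (h.B P)).sum + ((n - card F : ℕ) : ℝ) * h.B P none +
      (R.map (h.B P)).sum) (((n - card F : ℕ) : ℝ) * h.B P none)
    rw [show (F.map (h.B P)).sum + ((n - card F : ℕ) : ℝ) * h.B P none + (R.map (h.B P)).sum -
      ((n - card F : ℕ) : ℝ) * h.B P none = (F.map (h.B P)).sum + (R.map (h.B P)).sum by ring] at h3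
    have := le_max_left C₁ 0
    linarith
  have k1 := key E hE hPE rfl
  have k2 := key E' hE' hPE' hcl.symm
  have := abs_sub ((E.map (h.B P)).sum + (R.map (h.B P)).sum)
    ((E'.map (h.B P)).sum + (R.map (h.B P)).sum)
  rw [add_sub_add_right_eq_sub] at this
  have : 0 ≤ (n : ℝ) * C₀ := by positivity
  linarith

theorem exists_BB_congr_right : ∃ C : ℝ, 0 ≤ C ∧ ∀ E F F' : Multiset (Pt K A),
    card E ≤ 2 * bd D → card F ≤ 2 * bd D → card F' ≤ 2 * bd D →
    (∀ P ∈ E, P ∉ F) → (∀ P ∈ E, P ∉ F') → cl F = cl F' → |h.BB E F - h.BB E F'| ≤ C := by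
  obtain ⟨C, hC, hcongr⟩ := h.exists_point_congr
  refine ⟨(2 * bd D : ℕ) * C, by positivity, fun E F F' hE hF hF' hd hd' hcl => ?_⟩
  rw [BB, BB, ← Multiset.sum_map_sub]
  refine Multiset.abs_sum_le_sum_abs.trans ?_
  refine (Multiset.sum_le_card_nsmul _ C fun x hx => ?_).trans ?_
  · simp only [Multiset.map_map, Multiset.mem_map, Function.comp_apply] at hx
    obtain ⟨P, hP, rfl⟩ := hx
    exact hcongr P F F' hF hF' (hd P hP) (hd' P hP) hcl
  · rw [nsmul_eq_mul]
    simp only [Multiset.card_map]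
    gcongr

/-- Disjointness of two divisors. -/
abbrev Disj (E F : Multiset (Pt K A)) : Prop := ∀ P ∈ E, P ∉ F

theorem exists_BB_congr : ∃ C : ℝ, 0 ≤ C ∧ ∀ E F E' F' : Multiset (Pt K A),
    card E ≤ bd D → card F ≤ bd D → card E' ≤ bd D → card F' ≤ bd D →
    Disj E F → Disj E' F' → cl E = cl E' → cl F = cl F' → |h.BB E F - h.BB E' F'| ≤ C := by
  classical
  obtain ⟨C, hC, hr⟩ := h.exists_BB_congr_right
  refine ⟨3 * C, by positivity, fun E F E' F' hE hF hE' hF' hd hd' hcE hcF => ?_⟩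
  obtain ⟨G, hGc, hGcl, hG⟩ := D.exists_rep_avoid (cl F) (d := bd D)
    (by simp only [bd]; omega) (E + E').toFinset
  have hdG : ∀ P ∈ E + E', P ∉ G := fun P hP hPG => hG P hPG (Multiset.mem_toFinset.mpr hP)
  have h1 := hr E F G (by omega) (by omega) (by omega) hd
    (fun P hP => hdG P (Multiset.mem_add.mpr (Or.inl hP))) hGcl.symm
  have h2 := hr G E E' (by omega) (by omega) (by omega)
    (fun P hP hPE => hdG P (Multiset.mem_add.mpr (Or.inl hPE)) hP)
    (fun P hP hPE => hdG P (Multiset.mem_add.mpr (Or.inr hPE)) hP) hcE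
  have h3 := hr E' G F' (by omega) (by omega) (by omega)
    (fun P hP => hdG P (Multiset.mem_add.mpr (Or.inr hP))) hd' (hGcl.trans hcF)
  rw [h.BB_symm G E, h.BB_symm G E'] at h2
  rw [abs_le] at h1 h2 h3 ⊢
  constructor <;> linarith [h1.1, h1.2, h2.1, h2.2, h3.1, h3.2]

variable (D) in
/-- Any two classes have disjoint representatives of degree `2 * genus`. -/
theorem exists_disj_reps (x y : Additive (ClassGroup A)) :
    ∃ E F : Multiset (Pt K A), card E = 2 * D.genus ∧ card F = 2 * D.genus ∧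
      cl E = x ∧ cl F = y ∧ Disj E F := by
  classical
  obtain ⟨E, hE, hEx, -⟩ := D.exists_rep_avoid x le_rfl ∅
  obtain ⟨F, hF, hFy, hd⟩ := D.exists_rep_avoid y le_rfl E.toFinset
  exact ⟨E, F, hE, hF, hEx, hFy, fun P hP hPF => hd P hPF (Multiset.mem_toFinset.mpr hP)⟩

/-- The pairing of two classes. -/
def pr (x y : Additive (ClassGroup A)) : ℝ :=
  h.BB (exists_disj_reps D x y).choose (exists_disj_reps D x y).choose_spec.choose

/-- The pairing of disjoint divisors of bounded degree depends on their classes up to a constant. -/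
theorem exists_BB_pr : ∃ C : ℝ, 0 ≤ C ∧ ∀ E F : Multiset (Pt K A),
    card E ≤ bd D → card F ≤ bd D → Disj E F → |h.BB E F - h.pr (cl E) (cl F)| ≤ C := by
  obtain ⟨C, hC, hcongr⟩ := h.exists_BB_congr
  refine ⟨C, hC, fun E F hE hF hd => ?_⟩
  obtain ⟨h1, h2, h3, h4, h5⟩ := (exists_disj_reps D (cl E) (cl F)).choose_spec.choose_spec
  exact hcongr E F _ _ hE hF (by simp only [bd]; omega) (by simp only [bd]; omega) hd h5 h3.symm
    h4.symm

/-- The pairing of classes is symmetric up to a constant. -/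
theorem exists_pr_symm : ∃ C : ℝ, 0 ≤ C ∧ ∀ x y, |h.pr x y - h.pr y x| ≤ C := by
  obtain ⟨C, hC, hp⟩ := h.exists_BB_pr
  refine ⟨2 * C, by positivity, fun x y => ?_⟩
  obtain ⟨E, F, hE, hF, rfl, rfl, hd⟩ := exists_disj_reps D x y
  have h1 := hp E F (by simp only [bd]; omega) (by simp only [bd]; omega) hd
  have h2 := hp F E (by simp only [bd]; omega) (by simp only [bd]; omega)
    fun P hP hPE => hd P hPE hP
  rw [h.BB_symm F E] at h2
  rw [abs_le] at h1 h2 ⊢
  constructor <;> linarith [h1.1, h1.2, h2.1, h2.2]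

theorem exists_pr_add_left : ∃ C : ℝ, 0 ≤ C ∧
    ∀ x y z, |h.pr (x + y) z - (h.pr x z + h.pr y z)| ≤ C := by
  classical
  obtain ⟨C, hC, hp⟩ := h.exists_BB_pr
  refine ⟨3 * C, by positivity, fun x y z => ?_⟩
  obtain ⟨G, hG, hGz, -⟩ := D.exists_rep_avoid z le_rfl ∅
  obtain ⟨E, hE, hEx, hEd⟩ := D.exists_rep_avoid x le_rfl G.toFinset
  obtain ⟨F, hF, hFy, hFd⟩ := D.exists_rep_avoid y le_rfl G.toFinset
  have hdE : Disj E G := fun P hP hPG => hEd P hP (Multiset.mem_toFinset.mpr hPG)
  have hdF : Disj F G := fun P hP hPG => hFd P hP (Multiset.mem_toFinset.mpr hPG)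
  have hdEF : Disj (E + F) G := fun P hP => (Multiset.mem_add.mp hP).elim (hdE P) (hdF P)
  have h1 := hp E G (by simp only [bd]; omega) (by simp only [bd]; omega) hdE
  have h2 := hp F G (by simp only [bd]; omega) (by simp only [bd]; omega) hdF
  have h3 := hp (E + F) G (by simp only [bd, card_add]; omega) (by simp only [bd]; omega) hdEF
  have hsum : cl (E + F) = cl E + cl F := by simp [cl]
  rw [h.BB_add_left, hsum, hEx, hFy, hGz] at h3
  rw [hEx, hGz] at h1
  rw [hFy, hGz] at h2
  rw [abs_le] at h1 h2 h3 ⊢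
  constructor <;> linarith [h1.1, h1.2, h2.1, h2.2, h3.1, h3.2]

theorem exists_pr_add_right : ∃ C : ℝ, 0 ≤ C ∧
    ∀ x y z, |h.pr x (y + z) - (h.pr x y + h.pr x z)| ≤ C := by
  obtain ⟨C, hC, ha⟩ := h.exists_pr_add_left
  obtain ⟨S, hS, hs⟩ := h.exists_pr_symm
  refine ⟨C + 3 * S, by positivity, fun x y z => ?_⟩
  have h1 := ha y z x
  have h2 := hs x (y + z)
  have h3 := hs x y
  have h4 := hs x z
  rw [abs_le] at h1 h2 h3 h4 ⊢
  constructor <;> linarith [h1.1, h1.2, h2.1, h2.2, h3.1, h3.2, h4.1, h4.2]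

/-- The quadratic form. -/
def q (x : Additive (ClassGroup A)) : ℝ := h.pr x x

theorem exists_pr_zero_left : ∃ C : ℝ, 0 ≤ C ∧ ∀ y, |h.pr 0 y| ≤ C := by
  obtain ⟨C, hC, ha⟩ := h.exists_pr_add_left
  refine ⟨C, hC, fun y => ?_⟩
  have h1 := ha 0 0 y
  rw [add_zero, show h.pr 0 y - (h.pr 0 y + h.pr 0 y) = -h.pr 0 y by ring, abs_neg] at h1
  exact h1

/-- The pairing of classes respects negation up to a constant. -/
theorem exists_pr_neg_left : ∃ C : ℝ, 0 ≤ C ∧ ∀ x y, |h.pr (-x) y + h.pr x y| ≤ C := by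
  obtain ⟨C, hC, ha⟩ := h.exists_pr_add_left
  obtain ⟨Z, hZ, hz⟩ := h.exists_pr_zero_left
  refine ⟨C + Z, by positivity, fun x y => ?_⟩
  have h1 := ha (-x) x y
  have h2 := hz y
  rw [neg_add_cancel] at h1
  rw [abs_le] at h1 h2 ⊢
  constructor <;> linarith [h1.1, h1.2, h2.1, h2.2]

/-- The parallelogram law up to a constant. -/
theorem exists_parallelogram : ∃ C : ℝ, 0 ≤ C ∧
    ∀ x y, |h.q (x + y) + h.q (x - y) - 2 * (h.q x + h.q y)| ≤ C := by
  obtain ⟨A₁, hA₁, hl⟩ := h.exists_pr_add_left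
  obtain ⟨A₂, hA₂, hr⟩ := h.exists_pr_add_right
  obtain ⟨A₃, hA₃, hn⟩ := h.exists_pr_neg_left
  obtain ⟨A₄, hA₄, hs⟩ := h.exists_pr_symm
  refine ⟨2 * A₁ + 4 * A₂ + 4 * A₃ + 5 * A₄, by positivity, fun x y => ?_⟩
  rw [sub_eq_add_neg x y]
  simp only [q]
  have a1 := abs_le.mp (hl x y (x + y))
  have a2 := abs_le.mp (hr x x y)
  have a3 := abs_le.mp (hr y x y)
  have b1 := abs_le.mp (hl x (-y) (x + -y))
  have b2 := abs_le.mp (hr x x (-y))
  have b3 := abs_le.mp (hr (-y) x (-y))
  have n1 := abs_le.mp (hn y x)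
  have n2 := abs_le.mp (hn y (-y))
  have n3 := abs_le.mp (hn y y)
  have s1 := abs_le.mp (hs x (-y))
  have s2 := abs_le.mp (hs y (-y))
  have s3 := abs_le.mp (hs x y)
  rw [abs_le]
  constructor <;>
    linarith [a1.1, a1.2, a2.1, a2.2, a3.1, a3.2, b1.1, b1.2, b2.1, b2.2, b3.1, b3.2, n1.1, n1.2,
      n2.1, n2.2, n3.1, n3.2, s1.1, s1.2, s2.1, s2.2, s3.1, s3.2]

/-- The pairing of classes is additive in finite sums up to a multiple of a constant. -/
theorem exists_pr_finset_sum : ∃ C : ℝ, 0 ≤ C ∧ ∀ {ι : Type} (s : Finset ι)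
    (f : ι → Additive (ClassGroup A)) (y : Additive (ClassGroup A)),
    |h.pr (∑ i ∈ s, f i) y - ∑ i ∈ s, h.pr (f i) y| ≤ (s.card + 1) * C ∧
    |h.pr y (∑ i ∈ s, f i) - ∑ i ∈ s, h.pr y (f i)| ≤ (s.card + 1) * C := by
  classical
  obtain ⟨C₁, hC₁, hl⟩ := h.exists_pr_add_left
  obtain ⟨C₂, hC₂, hr⟩ := h.exists_pr_add_right
  refine ⟨C₁ + C₂, by positivity, fun s f y => ?_⟩
  induction s using Finset.induction with
  | empty =>
    simp only [Finset.sum_empty, sub_zero, Finset.card_empty, Nat.cast_zero, zero_add, one_mul]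
    have h1 := abs_le.mp (hl 0 0 y)
    have h2 := abs_le.mp (hr y 0 0)
    simp only [add_zero] at h1 h2
    constructor <;> rw [abs_le] <;> constructor <;> linarith [h1.1, h1.2, h2.1, h2.2]
  | insert i s his ih =>
    simp only [Finset.sum_insert his, Finset.card_insert_of_notMem his, Nat.cast_succ]
    have h1 := abs_le.mp (hl (f i) (∑ j ∈ s, f j) y)
    have h2 := abs_le.mp (hr y (f i) (∑ j ∈ s, f j))
    have h3 := abs_le.mp ih.1
    have h4 := abs_le.mp ih.2
    constructor <;> rw [abs_le] <;> constructor <;>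
      nlinarith [h1.1, h1.2, h2.1, h2.2, h3.1, h3.2, h4.1, h4.2]

end Fermat.Agent.MW.HeightData
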