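import Fermat.Agent.MW.Form.Pairing
import Fermat.Agent.MW.Core.Canonical
import Mathlib.Algebra.Order.Archimedean.Real.Basic
import Mathlib.Tactic.Linarith

/-!
# Positivity of the height form on good divisors

The form at the class of a point is at least `2g - ε` times its height up to a constant, and on good
divisors it dominates the total height.
-/

set_option autoImplicit false

noncomputable section

open Multiset

namespace Fermat.Agent.MW

/-- Splitting a symmetric double sum into its diagonal and its part above the diagonal. -/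
theorem sum_prod_eq_diag_add_two_mul {d : ℕ} (f : Fin d → Fin d → ℝ)
    (hf : ∀ i j, f i j = f j i) :
    ∑ i, ∑ j, f i j = ∑ i, f i i +
      2 * ∑ p ∈ Finset.univ.filter (fun p : Fin d × Fin d => p.1 < p.2), f p.1 p.2 := by
  rw [← Fintype.sum_prod_type']
  have hsplit := Finset.sum_filter_add_sum_filter_not (Finset.univ : Finset (Fin d × Fin d))
    (fun p => p.1 < p.2) (fun p => f p.1 p.2)
  have hsplit2 := Finset.sum_filter_add_sum_filter_not
    (Finset.univ.filter fun p : Fin d × Fin d => ¬ p.1 < p.2) (fun p => p.2 < p.1)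
    (fun p => f p.1 p.2)
  rw [← hsplit, ← hsplit2, Finset.filter_filter, Finset.filter_filter]
  have hgt : ∑ p ∈ Finset.univ.filter (fun p : Fin d × Fin d => ¬ p.1 < p.2 ∧ p.2 < p.1),
      f p.1 p.2 = ∑ p ∈ Finset.univ.filter (fun p : Fin d × Fin d => p.1 < p.2), f p.1 p.2 := by
    refine Finset.sum_equiv (Equiv.prodComm _ _) (fun p => ?_) fun p _ => hf _ _
    simp only [Finset.mem_filter, Finset.mem_univ, true_and, Equiv.prodComm_apply, Prod.fst_swap,
      Prod.snd_swap]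
    exact ⟨fun h => h.2, fun h => ⟨not_lt.mpr h.le, h⟩⟩
  have hdiag : ∑ p ∈ Finset.univ.filter (fun p : Fin d × Fin d => ¬ p.1 < p.2 ∧ ¬ p.2 < p.1),
      f p.1 p.2 = ∑ i, f i i := by
    refine Finset.sum_nbij' (fun p => p.1) (fun i => (i, i)) ?_ ?_ ?_ ?_ ?_
    · simp
    · simp
    · intro p hp
      have hp := (Finset.mem_filter.mp hp).2
      simp only [not_lt] at hp
      exact Prod.ext rfl (le_antisymm hp.1 hp.2).symm
    · simp
    · intro p hp
      simp only [Finset.mem_filter, Finset.mem_univ, true_and, not_lt] at hp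
      rw [le_antisymm hp.1 hp.2]
  rw [hgt, hdiag]
  ring

namespace HeightData

variable {K A : Type} [Field K] [CommRing A] [Algebra K A] [IsDedekindDomain A]
  {D : CurveBasis K A} (h : HeightData D) [IsAlgClosed K]

omit [IsAlgClosed K] in
theorem cl_singleton' (P : Pt K A) : cl {P} = pcl P := by simp [cl]

/-- The pairing of two distinct points through their classes. -/
theorem exists_B_pr : ∃ C : ℝ, 0 ≤ C ∧ ∀ P Q : Pt K A, P ≠ Q →
    |h.B P Q - h.pr (pcl P) (pcl Q)| ≤ C := by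
  obtain ⟨C, hC, hp⟩ := h.exists_BB_pr
  refine ⟨C, hC, fun P Q hPQ => ?_⟩
  have := hp {P} {Q} (by simp only [card_singleton, bd]; omega)
    (by simp only [card_singleton, bd]; omega) (by simpa [Disj] using hPQ)
  rwa [h.BB_singleton, cl_singleton', cl_singleton'] at this

theorem exists_pr_neg_right : ∃ C : ℝ, 0 ≤ C ∧ ∀ x y, |h.pr x (-y) + h.pr x y| ≤ C := by
  obtain ⟨C, hC, hn⟩ := h.exists_pr_neg_left
  obtain ⟨S, hS, hs⟩ := h.exists_pr_symm
  refine ⟨C + 2 * S, by positivity, fun x y => ?_⟩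
  have h1 := abs_le.mp (hn y x)
  have h2 := abs_le.mp (hs x (-y))
  have h3 := abs_le.mp (hs x y)
  rw [abs_le]
  constructor <;> linarith [h1.1, h1.2, h2.1, h2.2, h3.1, h3.2]

/-- The pairing of a point with a fixed class is at most a small multiple of its height. -/
theorem exists_pr_pt_le (y : Additive (ClassGroup A)) {ε : ℝ} (hε : 0 < ε) :
    ∃ C : ℝ, 0 ≤ C ∧ ∀ P : Pt K A, h.pr (pcl P) y ≤ ε * h.hO P + C := by
  classical
  obtain ⟨C₁, hC₁, hp⟩ := h.exists_BB_pr
  obtain ⟨C₂, hC₂, hsum⟩ := h.exists_pr_finset_sum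
  obtain ⟨C₃, hC₃, hB⟩ := h.B_le
  obtain ⟨n, hn⟩ := exists_nat_gt ((2 * D.genus : ℕ) / ε)
  have hn0 : 0 < (n : ℝ) := lt_of_le_of_lt (by positivity) hn
  obtain ⟨E₁, E₂, hE₁, hE₂, hE₁y, hE₂y, hd⟩ := exists_disj_reps D (n • y) (n • y)
  set M : ℝ := |(E₁.map h.hO).sum| + |(E₂.map h.hO).sum| + (2 * D.genus : ℕ) * C₃ + C₁ +
    ((n : ℝ) + 1) * C₂ with hM
  have hM0 : 0 ≤ M := by positivity
  refine ⟨M, hM0, fun P => ?_⟩
  obtain ⟨E, hEc, hEy, hPE, hEM⟩ : ∃ E : Multiset (Pt K A), card E = 2 * D.genus ∧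
      cl E = n • y ∧ P ∉ E ∧ (E.map h.hO).sum ≤ |(E₁.map h.hO).sum| + |(E₂.map h.hO).sum| := by
    by_cases hP : P ∈ E₁
    · exact ⟨E₂, hE₂, hE₂y, hd P hP, (le_abs_self _).trans (le_add_of_nonneg_left (abs_nonneg _))⟩
    · exact ⟨E₁, hE₁, hE₁y, hP, (le_abs_self _).trans (le_add_of_nonneg_right (abs_nonneg _))⟩
  have h1 := hp {P} E (by simp only [card_singleton, bd]; omega) (by simp only [bd]; omega)
    (by simpa [Disj] using hPE)
  rw [cl_singleton', hEy, h.BB_singleton_left] at h1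
  have h2 : (E.map (h.B P)).sum ≤
      (2 * D.genus : ℕ) * h.hO P + (E.map h.hO).sum + (2 * D.genus : ℕ) * C₃ := by
    refine (Multiset.sum_map_le_sum_map _ (fun Q => h.hO P + h.hO Q + C₃) fun Q hQ => ?_).trans ?_
    · exact hB P Q fun hc => hPE (hc ▸ hQ)
    · simp [Multiset.sum_map_add, hEc, nsmul_eq_mul]
  have h3 := (hsum (Finset.range n) (fun _ => y) (pcl P)).2
  simp only [Finset.sum_const, Finset.card_range, nsmul_eq_mul] at h3
  have h4 : (n : ℝ) * h.pr (pcl P) y ≤ (2 * D.genus : ℕ) * h.hO P + M := by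
    rw [abs_le] at h1 h3
    rw [hM]
    linarith [h1.1, h1.2, h3.1, h3.2]
  have h5 : ((2 * D.genus : ℕ) : ℝ) ≤ (n : ℝ) * ε := by
    rw [div_lt_iff₀ hε] at hn; linarith
  have h6 : (n : ℝ) * h.pr (pcl P) y ≤ (n : ℝ) * (ε * h.hO P + M) := by
    have := mul_le_mul_of_nonneg_right h5 (h.hO_nonneg P)
    have hn1 : (1 : ℝ) ≤ n := by exact_mod_cast Nat.cast_pos.mp hn0
    nlinarith
  exact le_of_mul_le_mul_left h6 hn0

theorem exists_abs_pr_pt_le (y : Additive (ClassGroup A)) {ε : ℝ} (hε : 0 < ε) :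
    ∃ C : ℝ, 0 ≤ C ∧ ∀ P : Pt K A, |h.pr (pcl P) y| ≤ ε * h.hO P + C := by
  obtain ⟨C₁, hC₁, h1⟩ := h.exists_pr_pt_le y hε
  obtain ⟨C₂, hC₂, h2⟩ := h.exists_pr_pt_le (-y) hε
  obtain ⟨C₃, hC₃, h3⟩ := h.exists_pr_neg_right
  refine ⟨C₁ + C₂ + C₃, by positivity, fun P => abs_le.mpr ⟨?_, ?_⟩⟩
  · have := h2 P; have := abs_le.mp (h3 (pcl P) y); linarith [this.1, this.2]
  · linarith [h1 P]

/-- The pairing of a point with a fixed divisor is at most a small multiple of its height. -/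
theorem exists_abs_sum_B_le (R : Multiset (Pt K A)) {ε : ℝ} (hε : 0 < ε) :
    ∃ C : ℝ, 0 ≤ C ∧ ∀ P : Pt K A, P ∉ R → |(R.map (h.B P)).sum| ≤ ε * h.hO P + C := by
  induction R using Multiset.induction generalizing ε with
  | empty => exact ⟨0, le_rfl, fun P _ => by simpa using mul_nonneg hε.le (h.hO_nonneg P)⟩
  | cons Q R ih =>
    obtain ⟨C₁, hC₁, h1⟩ := ih (half_pos hε)
    obtain ⟨C₂, hC₂, h2⟩ := h.exists_abs_pr_pt_le (pcl Q) (half_pos hε)
    obtain ⟨C₃, hC₃, h3⟩ := h.exists_B_pr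
    refine ⟨C₁ + C₂ + C₃, by positivity, fun P hP => ?_⟩
    rw [Multiset.mem_cons, not_or] at hP
    simp only [Multiset.map_cons, Multiset.sum_cons]
    have a1 := abs_le.mp (h1 P hP.2)
    have a2 := abs_le.mp (h2 P)
    have a3 := abs_le.mp (h3 P Q hP.1)
    rw [abs_le]
    constructor <;> linarith [a1.1, a1.2, a2.1, a2.2, a3.1, a3.2]

/-- The height of the image by a family is controlled by the degree of its moving part. -/
theorem exists_abs_hF_le {ι : Type} [Fintype ι] [Nonempty ι] (F : BaseFamily D ι) {ε : ℝ}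
    (hε : 0 < ε) : ∃ C : ℝ, 0 ≤ C ∧ ∀ P : Pt K A, P ∉ F.R →
      |h.hF F P - ((F.k : ℝ) * D.embDeg - (Multiset.card F.R : ℝ)) * h.hO P| ≤
        ε * h.hO P + C := by
  obtain ⟨C₁, h1⟩ := h.hF_family F
  obtain ⟨C₂, hC₂, h2⟩ := h.exists_abs_sum_B_le F.R hε
  refine ⟨|C₁| + C₂ + |(F.R.map h.hO).sum|, by positivity, fun P hP => ?_⟩
  have hsum : (F.R.map fun R => h.H P R).sum =
      (Multiset.card F.R : ℝ) * h.hO P + (F.R.map h.hO).sum - (F.R.map (h.B P)).sum := by
    simp only [show (fun R => h.H P R) = fun R => h.hO P + h.hO R - h.B P R by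
      funext R; simp [B], Multiset.sum_map_sub, Multiset.sum_map_add, Multiset.map_const',
      Multiset.sum_replicate, nsmul_eq_mul]
  have a1 := h1 P hP
  rw [hsum] at a1
  have a1 := abs_le.mp a1
  have a2 := abs_le.mp (h2 P hP)
  have a3 := le_abs_self C₁
  have a4 := le_abs_self (F.R.map h.hO).sum
  have a5 := neg_abs_le (F.R.map h.hO).sum
  rw [abs_le]
  constructor <;> linarith [a1.1, a1.2, a2.1, a2.2]

section Fibre

/-- The finite points of a fibre of the projection. -/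
theorem mem_fibre_iff (c : K) (φ : A →ₐ[K] K) :
    some φ ∈ D.zeros D.projDeg (D.e D.projDeg - algebraMap K A c) ↔ φ (D.e D.projDeg) = c := by
  rw [← D.evSec_eq_zero_iff (D.proj_sub_ne_zero c) (D.proj_sub_mem c)]
  change φ (D.e D.projDeg - algebraMap K A c) = 0 ↔ _
  rw [map_sub, φ.commutes, sub_eq_zero]
  simp

end Fibre

variable [CharZero K]

omit [CharZero K] in
/-- The quadratic form at the class of a point, outside the finitely many bad fibres. -/
theorem exists_q_pt_regular [Nonempty (Fin D.projDeg)] (E : DualData D)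
    (hunr : ∀ (φ : A →ₐ[K] K) (Qs : Multiset (Pt K A)),
      D.zeros D.projDeg (D.e D.projDeg - algebraMap K A (φ (D.e D.projDeg))) = some φ ::ₘ Qs →
      Polynomial.eval (φ (D.e D.projDeg)) E.Δ ≠ 0 → some φ ∉ Qs)
    {ε : ℝ} (hε : 0 < ε) : ∃ C : ℝ, 0 ≤ C ∧ ∀ φ : A →ₐ[K] K,
      Polynomial.eval (φ (D.e D.projDeg)) E.Δ ≠ 0 → some φ ∉ E.R →
      (2 * (D.genus : ℝ) - ε) * h.hO (some φ) ≤ h.q (pcl (some φ)) + C := by
  obtain ⟨C₁, h1⟩ := h.hF_dual E
  obtain ⟨C₂, hC₂, h2⟩ := h.exists_abs_hF_le E.toBaseFamily hε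
  obtain ⟨C₃, hC₃, h3⟩ := h.exists_BB_pr
  obtain ⟨C₄, hC₄, h4⟩ := h.exists_pr_neg_right
  obtain ⟨C₅, h5⟩ := h.hO_fibre
  refine ⟨|C₁| + C₂ + C₃ + C₄ + (D.projDeg : ℝ) * |C₅|, by positivity, fun φ hΔ hR => ?_⟩
  set c := φ (D.e D.projDeg) with hc
  set P : Pt K A := some φ
  obtain ⟨Qs, hQs⟩ := Multiset.exists_cons_of_mem ((mem_fibre_iff (D := D) c φ).mpr hc.symm)
  have hPQs : P ∉ Qs := hunr φ Qs hQs hΔ
  have hcard : Multiset.card Qs + 1 = D.projDeg := by
    rw [← Multiset.card_cons P, ← hQs, D.card_zeros (D.proj_sub_ne_zero c) (D.proj_sub_mem c)]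
  have hcl : cl Qs = -pcl P := by
    have := D.cl_zeros (n := D.projDeg) (D.proj_sub_ne_zero c)
    rw [hQs] at this
    simp only [cl, Multiset.map_cons, Multiset.sum_cons] at this ⊢
    exact eq_neg_of_add_eq_zero_right this
  have a3 := h3 {P} Qs (by simp only [card_singleton, bd]; omega)
    (by simp only [bd, CurveBasis.projDeg] at *; omega) (by simpa [Disj] using hPQs)
  rw [cl_singleton', hcl, h.BB_singleton_left] at a3
  have a3 := abs_le.mp a3
  have a4 := abs_le.mp (h4 (pcl P) (pcl P))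
  have a1 := abs_le.mp (h1 φ Qs hQs hΔ hPQs hR)
  have a2 := abs_le.mp (h2 P hR)
  have hfib : |(Qs.map fun Q => h.hO Q - h.hO P).sum| ≤ (D.projDeg : ℝ) * |C₅| := by
    refine Multiset.abs_sum_le_sum_abs.trans ?_
    refine (Multiset.sum_le_card_nsmul _ |C₅| fun x hx => ?_).trans ?_
    · simp only [Multiset.map_map, Multiset.mem_map, Function.comp_apply] at hx
      obtain ⟨Q, hQ, rfl⟩ := hx
      have hQz : Q ∈ D.zeros D.projDeg (D.e D.projDeg - algebraMap K A c) := by
        rw [hQs]; exact Multiset.mem_cons_of_mem hQ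
      cases Q with
      | none => exact absurd hQz (D.none_notMem_zeros_proj_sub c)
      | some ψ => exact (h5 ψ φ ((mem_fibre_iff c ψ).mp hQz)).trans (le_abs_self _)
    · rw [nsmul_eq_mul]
      simp only [Multiset.card_map]
      gcongr
      omega
  have a5 := abs_le.mp hfib
  have hsum : (Qs.map (h.B P)).sum = 2 * ((D.projDeg : ℝ) - 1) * h.hO P +
      (Qs.map fun Q => h.hO Q - h.hO P).sum - (Qs.map fun Q => h.H P Q).sum := by
    change (Qs.map fun Q => h.B P Q).sum = _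
    rw [show (fun Q => h.B P Q) = fun Q => 2 * h.hO P + (h.hO Q - h.hO P) - h.H P Q by
      funext Q; rw [B]; ring]
    simp only [Multiset.sum_map_sub, Multiset.sum_map_add, Multiset.map_const',
      Multiset.sum_replicate, nsmul_eq_mul]
    rw [show (Multiset.card Qs : ℝ) = (D.projDeg : ℝ) - 1 by
      rw [← hcard]; push_cast; ring]
    ring
  have hR' : (E.k : ℝ) * D.embDeg - (Multiset.card E.R : ℝ) =
      2 * (D.genus : ℝ) + D.projDeg - 1 := by
    have := E.card_R
    have : ((Multiset.card E.R : ℝ) + 2 * D.genus + D.projDeg) = E.k * D.embDeg + 1 := by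
      exact_mod_cast this
    linarith
  rw [hR'] at a2
  rw [hsum] at a3
  have := le_abs_self C₁
  change _ ≤ h.pr (pcl P) (pcl P) + _
  linarith [a1.1, a1.2, a2.1, a2.2, a3.1, a3.2, a4.1, a4.2, a5.1, a5.2]

/-- The quadratic form at the class of a point. -/
theorem exists_q_pt
    (hunr : ∀ (E : DualData D) (φ : A →ₐ[K] K) (Qs : Multiset (Pt K A)),
      D.zeros D.projDeg (D.e D.projDeg - algebraMap K A (φ (D.e D.projDeg))) = some φ ::ₘ Qs →
      Polynomial.eval (φ (D.e D.projDeg)) E.Δ ≠ 0 → some φ ∉ Qs)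
    {ε : ℝ} (hε : 0 < ε) : ∃ C : ℝ, 0 ≤ C ∧ ∀ P : Pt K A,
      (2 * (D.genus : ℝ) - ε) * h.hO P ≤ h.q (pcl P) + C := by
  classical
  have : Nonempty (Fin D.projDeg) := ⟨⟨0, by simp [CurveBasis.projDeg]⟩⟩
  obtain ⟨E⟩ := D.nonempty_dualData
  obtain ⟨C₁, hC₁, h1⟩ := h.exists_q_pt_regular E (hunr E) hε
  set Bad : Finset (Pt K A) := insert none (E.R.toFinset ∪ (E.Δ.roots.toFinset).biUnion
    fun c => (D.zeros D.projDeg (D.e D.projDeg - algebraMap K A c)).toFinset) with hBad
  refine ⟨C₁ + ∑ P ∈ Bad, |(2 * (D.genus : ℝ) - ε) * h.hO P - h.q (pcl P)|, by positivity,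
    fun P => ?_⟩
  by_cases hP : P ∈ Bad
  · have := Finset.single_le_sum
      (f := fun P => |(2 * (D.genus : ℝ) - ε) * h.hO P - h.q (pcl P)|)
      (fun Q _ => abs_nonneg _) hP
    have := le_abs_self ((2 * (D.genus : ℝ) - ε) * h.hO P - h.q (pcl P))
    linarith
  · cases P with
    | none => exact absurd (Finset.mem_insert_self _ _) hP
    | some φ =>
      simp only [hBad, Finset.mem_insert, reduceCtorEq, Finset.mem_union, Multiset.mem_toFinset,
        Finset.mem_biUnion, false_or, not_or] at hP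
      refine le_trans (h1 φ (fun hΔ => hP.2 ?_) hP.1) ?_
      · exact ⟨φ (D.e D.projDeg),
          (Polynomial.mem_roots E.Δ_ne_zero).mpr hΔ, (mem_fibre_iff _ φ).mpr rfl⟩
      · have : 0 ≤ ∑ P ∈ Bad, |(2 * (D.genus : ℝ) - ε) * h.hO P - h.q (pcl P)| :=
          Finset.sum_nonneg fun _ _ => abs_nonneg _
        linarith

/-- On good divisors the form dominates the total height. -/
theorem exists_q_good
    (hunr : ∀ (E : DualData D) (φ : A →ₐ[K] K) (Qs : Multiset (Pt K A)),
      D.zeros D.projDeg (D.e D.projDeg - algebraMap K A (φ (D.e D.projDeg))) = some φ ::ₘ Qs →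
      Polynomial.eval (φ (D.e D.projDeg)) E.Δ ≠ 0 → some φ ∉ Qs) :
    ∃ C : ℝ, 0 ≤ C ∧ ∀ E : Multiset (Pt K A), D.Good E → (E.map h.hO).sum ≤ h.q (cl E) + C := by
  classical
  by_cases hg0 : D.genus = 0
  · refine ⟨|h.q 0|, abs_nonneg _, fun E hE => ?_⟩
    have hE0 : E = 0 := Multiset.card_eq_zero.mp (hE.2.1.trans hg0)
    subst hE0
    have := neg_abs_le (h.q 0)
    simp only [Multiset.map_zero, Multiset.sum_zero, cl]
    linarith
  obtain ⟨Fs, hFs⟩ := D.exists_canonFamilies (Nat.pos_of_ne_zero hg0)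
  obtain ⟨Cs, hCs, hsum⟩ := h.exists_pr_finset_sum
  obtain ⟨Cb, hCb, hBpr⟩ := h.exists_B_pr
  obtain ⟨Cq, hCq, hq⟩ := h.exists_q_pt hunr (ε := 1 / 3) (by norm_num)
  have hfam : ∀ F : CanonFamily D, ∃ C : ℝ, 0 ≤ C ∧ ∀ P : Fin D.genus → Pt K A,
      Function.Injective P → (∀ j, P j ∉ F.R) → D.Good (Finset.univ.val.map P) →
      ∑ p ∈ Finset.univ.filter (fun p : Fin D.genus × Fin D.genus => p.1 < p.2),
        h.H (P p.1) (P p.2) ≤ ∑ j, ((2 * (D.genus : ℝ) - 2 + 1 / 3) * h.hO (P j)) + C := by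
    intro F
    rcases Nat.eq_zero_or_pos D.genus with hg | hg
    · refine ⟨0, le_rfl, fun P _ _ _ => ?_⟩
      have : IsEmpty (Fin D.genus) := by rw [hg]; infer_instance
      simp
    · have : Nonempty (Fin D.genus) := ⟨⟨0, hg⟩⟩
      obtain ⟨C₁, h1⟩ := h.hF_det F.toBaseFamily
      obtain ⟨C₂, hC₂, h2⟩ := h.exists_abs_hF_le F.toBaseFamily (ε := 1 / 3) (by norm_num)
      refine ⟨|C₁| + D.genus * C₂, by positivity, fun P hinj hR hgood => ?_⟩
      have a1 := h1 P hR hinj (D.det_ne_zero_of_good F P hgood hR)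
      have a2 : ∑ j, h.hF F.toBaseFamily (P j) ≤
          ∑ j, ((2 * (D.genus : ℝ) - 2 + 1 / 3) * h.hO (P j) + C₂) := by
        refine Finset.sum_le_sum fun j _ => ?_
        have := (abs_le.mp (h2 (P j) (hR j))).2
        have hk : (F.k : ℝ) * D.embDeg - (Multiset.card F.R : ℝ) ≤ 2 * (D.genus : ℝ) - 2 := by
          have := F.card_R
          have : ((F.k : ℝ) * D.embDeg + 2) ≤ Multiset.card F.R + 2 * D.genus := by
            exact_mod_cast this
          linarith
        have := mul_le_mul_of_nonneg_right hk (h.hO_nonneg (P j))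
        linarith
      rw [Finset.sum_add_distrib, Finset.sum_const, Finset.card_univ, Fintype.card_fin,
        nsmul_eq_mul] at a2
      have := le_abs_self C₁
      linarith
  choose Cf hCf hf using hfam
  set g := D.genus
  refine ⟨2 * (∑ F ∈ Fs, Cf F) + g * Cq + g * g * Cb + 2 * (g + 1) * (g + 1) * Cs,
    add_nonneg (add_nonneg (add_nonneg
      (mul_nonneg two_pos.le (Finset.sum_nonneg fun F _ => hCf F)) (by positivity))
      (by positivity)) (by positivity), fun E hE => ?_⟩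
  obtain ⟨hnd, hcard, hnone, huniq⟩ := hE
  obtain ⟨F, hF, hR⟩ := hFs E hcard.le
  set l := E.toList with hl
  have hlen : l.length = g := by rw [hl, Multiset.length_toList, hcard]
  set P : Fin g → Pt K A := fun i => l.get (Fin.cast hlen.symm i) with hP
  have hEP : Finset.univ.val.map P = E := by
    rw [Fin.univ_val_map]
    rw [List.ofFn_congr hlen.symm]
    simp only [hP, List.get_eq_getElem, Fin.val_cast]
    rw [List.ofFn_getElem, hl, Multiset.coe_toList]
  have hmem : ∀ j, P j ∈ E := fun j => by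
    rw [← Multiset.mem_toList]; exact List.get_mem _ _
  have hinj : Function.Injective P := by
    refine fun i j hij => ?_
    have hnd' : l.Nodup := by rw [← Multiset.coe_nodup, hl, Multiset.coe_toList]; exact hnd
    exact Fin.cast_injective _ (List.nodup_iff_injective_get.mp hnd' hij)
  have hH := hf F P hinj (fun j => hR _ (hmem j)) (by rw [hEP]; exact ⟨hnd, hcard, hnone, huniq⟩)
  set f : Fin g → Fin g → ℝ := fun i j =>
    if i = j then h.q (pcl (P i)) else h.B (P i) (P j) with hf'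
  have hfsymm : ∀ i j, f i j = f j i := fun i j => by
    by_cases hij : i = j
    · rw [hij]
    · simp [hf', hij, Ne.symm hij, h.B_symm]
  have hcl : cl E = ∑ i, pcl (P i) := by
    rw [← hEP, cl, Multiset.map_map]; rfl
  have hexp : |h.q (cl E) - ∑ i, ∑ j, f i j| ≤ g * g * Cb + 2 * (g + 1) * (g + 1) * Cs := by
    have s1 := abs_le.mp (hsum Finset.univ (fun i => pcl (P i)) (cl E)).1
    rw [← hcl] at s1
    have s2 : ∀ i, |h.pr (pcl (P i)) (cl E) - ∑ j, h.pr (pcl (P i)) (pcl (P j))| ≤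
        ((g : ℝ) + 1) * Cs := by
      intro i
      have := (hsum Finset.univ (fun j => pcl (P j)) (pcl (P i))).2
      rwa [← hcl, Finset.card_univ, Fintype.card_fin] at this
    have s3 : ∀ i j, |h.pr (pcl (P i)) (pcl (P j)) - f i j| ≤ Cb := by
      intro i j
      by_cases hij : i = j
      · subst hij; simp [hf', HeightData.q, hCb]
      · rw [abs_sub_comm]; simpa [hf', hij] using hBpr (P i) (P j) (hinj.ne hij)
    have t1 : |∑ i, (h.pr (pcl (P i)) (cl E) - ∑ j, f i j)| ≤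
        g * (((g : ℝ) + 1) * Cs + g * Cb) := by
      refine (Finset.abs_sum_le_sum_abs _ _).trans ?_
      refine (Finset.sum_le_card_nsmul _ _ (((g : ℝ) + 1) * Cs + g * Cb) fun i _ => ?_).trans ?_
      · have h1 := abs_le.mp (s2 i)
        have h2 : |∑ j, (h.pr (pcl (P i)) (pcl (P j)) - f i j)| ≤ g * Cb := by
          refine (Finset.abs_sum_le_sum_abs _ _).trans ?_
          refine (Finset.sum_le_card_nsmul _ _ Cb fun j _ => s3 i j).trans ?_
          simp
        rw [Finset.sum_sub_distrib] at h2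
        have h2 := abs_le.mp h2
        rw [abs_le]; constructor <;> linarith [h1.1, h1.2, h2.1, h2.2]
      · simp [mul_add]
    rw [Finset.sum_sub_distrib] at t1
    have t1 := abs_le.mp t1
    rw [Finset.card_univ, Fintype.card_fin] at s1
    change |h.pr (cl E) (cl E) - _| ≤ _
    rw [abs_le]
    have hg0 : (0 : ℝ) ≤ g := Nat.cast_nonneg g
    constructor <;> nlinarith [s1.1, s1.2, t1.1, t1.2]
  rw [sum_prod_eq_diag_add_two_mul f hfsymm] at hexp
  have hdiag : ∑ i, ((2 * (g : ℝ) - 1 / 3) * h.hO (P i)) ≤ ∑ i, f i i + g * Cq := by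
    calc _ ≤ ∑ i, (f i i + Cq) := Finset.sum_le_sum fun i _ => by
          simpa [hf'] using hq (P i)
      _ = _ := by simp [Finset.sum_add_distrib]
  have hoff : ∑ p ∈ Finset.univ.filter (fun p : Fin g × Fin g => p.1 < p.2), f p.1 p.2 =
      ∑ p ∈ Finset.univ.filter (fun p : Fin g × Fin g => p.1 < p.2),
        (h.hO (P p.1) + h.hO (P p.2)) -
      ∑ p ∈ Finset.univ.filter (fun p : Fin g × Fin g => p.1 < p.2), h.H (P p.1) (P p.2) := by
    rw [← Finset.sum_sub_distrib]
    refine Finset.sum_congr rfl fun p hp => ?_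
    have hne : p.1 ≠ p.2 := ne_of_lt (Finset.mem_filter.mp hp).2
    simp [hf', hne, B]
  have hcount := sum_prod_eq_diag_add_two_mul (fun i j => h.hO (P i) + h.hO (P j))
    fun i j => add_comm _ _
  set S := ∑ i, h.hO (P i)
  simp only [Finset.sum_add_distrib, Finset.sum_const, Finset.card_univ, Fintype.card_fin,
    nsmul_eq_mul] at hcount
  rw [← Finset.mul_sum] at hdiag hH
  have hES : (E.map h.hO).sum = S := by rw [← hEP, Multiset.map_map]; rfl
  have hcf : Cf F ≤ ∑ F ∈ Fs, Cf F := Finset.single_le_sum (fun F _ => hCf F) hF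
  rw [Finset.mul_sum] at hcount
  simp only [← Finset.mul_sum, Finset.sum_add_distrib] at hcount hoff hH
  rw [hES]
  have hexp := abs_le.mp hexp
  linarith [hexp.1, hexp.2]

end HeightData

end Fermat.Agent.MW
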